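import Fermat.Prelude.Def_ExtCitation_AdmissibleExtension_v2

set_option autoImplicit false

/-!
# The abstract step: from a stable cyclic subgroup of order `p ^ n` to one of order `p ^ (n + 1)`
-/

namespace Fermat.Agent.Iter

local notation "Qb" => AlgebraicClosure ℚ
local notation "GQ" => AlgebraicClosure ℚ ≃ₐ[ℚ] AlgebraicClosure ℚ

section Quot

variable {G M : Type*} [Group G] [AddCommGroup M] [DistribMulAction G M]

/-- action on the quotient by a stable subgroup -/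
@[reducible] def quotAct (C : AddSubgroup M) (hC : ∀ σ : G, ∀ x ∈ C, σ • x ∈ C) :
    DistribMulAction G (M ⧸ C) where
  smul σ := QuotientAddGroup.map C C (DistribSMul.toAddMonoidHom M σ) (fun x hx => hC σ x hx)
  one_smul b := by
    induction b using QuotientAddGroup.induction_on with
    | H x => exact congrArg (QuotientAddGroup.mk (s := C)) (one_smul G x)
  mul_smul σ τ b := by
    induction b using QuotientAddGroup.induction_on with
    | H x => exact congrArg (QuotientAddGroup.mk (s := C)) (mul_smul σ τ x)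
  smul_zero σ := map_zero _
  smul_add σ a b := map_add (QuotientAddGroup.map C C (DistribSMul.toAddMonoidHom M σ)
    (fun x hx => hC σ x hx)) a b

/-- the `p`-torsion of `M / C` -/
def VV (C : AddSubgroup M) (p : ℕ) : AddSubgroup (M ⧸ C) := (nsmulAddMonoidHom p).ker

lemma mem_VV {C : AddSubgroup M} {p : ℕ} {x : M ⧸ C} : x ∈ VV C p ↔ p • x = 0 := Iff.rfl

lemma mk_mem_VV {C : AddSubgroup M} {p : ℕ} {x : M} :
    (QuotientAddGroup.mk x : M ⧸ C) ∈ VV C p ↔ p • x ∈ C := by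
  rw [mem_VV]
  exact QuotientAddGroup.eq_zero_iff (N := C) (p • x)

/-- the class of `x` with `p x ∈ C` -/
def cl {C : AddSubgroup M} {p : ℕ} (x : M) (hx : p • x ∈ C) : VV C p := ⟨QuotientAddGroup.mk x, mk_mem_VV.mpr hx⟩

lemma cl_eq_zero {C : AddSubgroup M} {p : ℕ} {x : M} {hx : p • x ∈ C} : cl x hx = 0 ↔ x ∈ C := by
  rw [← QuotientAddGroup.eq_zero_iff (N := C) x]
  exact Subtype.ext_iff

lemma exists_cl {C : AddSubgroup M} {p : ℕ} (y : VV C p) : ∃ x, ∃ hx : p • x ∈ C, y = cl x hx := by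
  obtain ⟨y, hy⟩ := y
  obtain ⟨x, rfl⟩ := QuotientAddGroup.mk_surjective y
  exact ⟨x, mk_mem_VV.mp hy, rfl⟩

/-- action on `VV` -/
@[reducible] def vAct (C : AddSubgroup M) (p : ℕ) (hC : ∀ σ : G, ∀ x ∈ C, σ • x ∈ C) :
    DistribMulAction G (VV C p) :=
  letI := quotAct C hC
  { smul := fun σ y => ⟨σ • (y : M ⧸ C), by
      have := y.2
      rw [mem_VV] at this ⊢
      have h : p • (σ • (y : M ⧸ C)) = σ • (p • (y : M ⧸ C)) :=
        (map_nsmul (DistribSMul.toAddMonoidHom _ σ) p (y : M ⧸ C)).symm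
      rw [h, this, smul_zero]⟩
    one_smul := fun y => Subtype.ext (one_smul G (y : M ⧸ C))
    mul_smul := fun σ τ y => Subtype.ext (mul_smul σ τ (y : M ⧸ C))
    smul_zero := fun σ => Subtype.ext (smul_zero (A := M ⧸ C) σ)
    smul_add := fun σ a b => Subtype.ext (smul_add σ (a : M ⧸ C) (b : M ⧸ C)) }

/-- `ZMod p`-module structure -/
@[reducible] def vMod (C : AddSubgroup M) (p : ℕ) : Module (ZMod p) (VV C p) :=
  AddCommGroup.zmodModule fun x => Subtype.ext (by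
    rw [AddSubgroup.coe_nsmul]
    exact x.2)

end Quot

section ClLemmas

variable {p : ℕ} {M : Type*} [AddCommGroup M] {C : AddSubgroup M}

lemma cl_congr {x y : M} {hx : p • x ∈ C} {hy : p • y ∈ C} (h : x - y ∈ C) :
    cl x hx = cl y hy := by
  refine Subtype.ext ?_
  change (QuotientAddGroup.mk x : M ⧸ C) = QuotientAddGroup.mk y
  rw [eq_comm, QuotientAddGroup.eq]
  rwa [neg_add_eq_sub]

lemma cl_add {x y : M} (hx : p • x ∈ C) (hy : p • y ∈ C)
    (hxy : p • (x + y) ∈ C) : cl (x + y) hxy = cl x hx + cl y hy := rfl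

lemma cl_sub {x y : M} (hx : p • x ∈ C) (hy : p • y ∈ C)
    (hxy : p • (x - y) ∈ C) : cl (x - y) hxy = cl x hx - cl y hy := rfl

lemma cl_zsmul {x : M} (k : ℤ) (hx : p • x ∈ C) (hkx : p • (k • x) ∈ C) :
    cl (k • x) hkx = k • cl x hx := rfl

lemma p_zsmul_mem {x : M} (k : ℤ) (hx : p • x ∈ C) : p • (k • x) ∈ C := by
  rw [smul_comm]
  exact C.zsmul_mem hx k

end ClLemmas

section Card

variable {p : ℕ} [hp : Fact p.Prime]

/-- the span of a nonzero vector has `p` elements -/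
lemma card_span_singleton {V : Type*} [AddCommGroup V] [Module (ZMod p) V] {v : V} (hv : v ≠ 0) :
    Nat.card (Submodule.span (ZMod p) {v}) = p := by
  rw [Nat.card_congr (LinearEquiv.toSpanNonzeroSingleton (ZMod p) V v hv).symm.toEquiv,
    Nat.card_zmod]

lemma card_of_isCompl {V : Type*} [AddCommGroup V] [Module (ZMod p) V]
    {A B : Submodule (ZMod p) V} (h : IsCompl A B) : Nat.card V = Nat.card A * Nat.card B := by
  rw [← Nat.card_prod]
  exact Nat.card_congr (Submodule.prodEquivOfIsCompl A B h).symm.toEquiv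

end Card

section Step

open ExtCitation

variable {p : ℕ} [hp : Fact p.Prime] {M : Type} [AddCommGroup M] [DistribMulAction GQ M]

/-- abstract version of the quotient `(p⁻¹ C) / C` -/
structure ClMap (p : ℕ) [Fact p.Prime] {M : Type} [AddCommGroup M] [DistribMulAction GQ M]
    (C : AddSubgroup M) (V : Type) [AddCommGroup V] [DistribMulAction GQ V] where
  cl : ∀ x : M, p • x ∈ C → V
  eq_zero : ∀ {x hx}, cl x hx = 0 ↔ x ∈ C
  ex : ∀ y : V, ∃ x, ∃ hx : p • x ∈ C, y = cl x hx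
  add : ∀ {x y : M} (hx : p • x ∈ C) (hy : p • y ∈ C) (hxy : p • (x + y) ∈ C),
    cl (x + y) hxy = cl x hx + cl y hy
  smul : ∀ (σ : GQ) (x : M) (hx : p • x ∈ C) (hσx : p • (σ • x) ∈ C),
      σ • cl x hx = cl (σ • x) hσx

namespace ClMap

variable {C : AddSubgroup M} {V : Type} [AddCommGroup V] [DistribMulAction GQ V]
  (D : ClMap p C V)

include D

lemma neg {x : M} (hx : p • x ∈ C) (hx' : p • (-x) ∈ C) : D.cl (-x) hx' = - D.cl x hx := by
  have h := D.add hx hx' (by rw [add_neg_cancel, smul_zero]; exact C.zero_mem)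
  have h0 : D.cl (x + -x) (by rw [add_neg_cancel, smul_zero]; exact C.zero_mem) = 0 :=
    D.eq_zero.mpr (by rw [add_neg_cancel]; exact C.zero_mem)
  rw [h0] at h
  exact eq_neg_of_add_eq_zero_right h.symm

lemma sub {x y : M} (hx : p • x ∈ C) (hy : p • y ∈ C)
    (hxy : p • (x - y) ∈ C) : D.cl (x - y) hxy = D.cl x hx - D.cl y hy := by
  have hy' : p • (-y) ∈ C := by rw [smul_neg]; exact C.neg_mem hy
  have hxy' : p • (x + -y) ∈ C := by rwa [← sub_eq_add_neg]
  have h : D.cl (x - y) hxy = D.cl (x + -y) hxy' := by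
    congr 1
    exact sub_eq_add_neg x y
  rw [h, D.add hx hy' hxy', D.neg hy hy', sub_eq_add_neg]

lemma congr {x y : M} {hx : p • x ∈ C} {hy : p • y ∈ C} (h : x - y ∈ C) :
    D.cl x hx = D.cl y hy := by
  rw [← sub_eq_zero, ← D.sub hx hy (by rw [smul_sub]; exact C.sub_mem hx hy)]
  exact D.eq_zero.mpr h

lemma nsmul {x : M} (k : ℕ) (hx : p • x ∈ C) (hkx : p • (k • x) ∈ C) :
    D.cl (k • x) hkx = k • D.cl x hx := by
  induction k with
  | zero =>
    rw [zero_smul _ (D.cl x hx)]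
    exact D.eq_zero.mpr (by rw [zero_smul]; exact C.zero_mem)
  | succ k ih =>
    have hk : p • (k • x) ∈ C := by rw [smul_comm]; exact C.nsmul_mem hx k
    have h1 : p • (k • x + x) ∈ C := by rw [smul_add]; exact C.add_mem hk hx
    have h2 : D.cl ((k + 1) • x) hkx = D.cl (k • x + x) h1 := by
      congr 1
      exact succ_nsmul x k
    rw [h2, D.add hk hx h1, ih hk, succ_nsmul]

lemma zsmul {x : M} (k : ℤ) (hx : p • x ∈ C) (hkx : p • (k • x) ∈ C) :
    D.cl (k • x) hkx = k • D.cl x hx := by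
  obtain ⟨n, rfl | rfl⟩ := k.eq_nat_or_neg
  · have h1 : p • (n • x) ∈ C := by rw [smul_comm]; exact C.nsmul_mem hx n
    have h2 : D.cl ((n : ℤ) • x) hkx = D.cl (n • x) h1 := by
      congr 1
      exact natCast_zsmul x n
    rw [h2, D.nsmul n hx h1, natCast_zsmul]
  · have h1 : p • (n • x) ∈ C := by rw [smul_comm]; exact C.nsmul_mem hx n
    have h1' : p • (-(n • x)) ∈ C := by rw [smul_neg]; exact C.neg_mem h1
    have h2 : D.cl ((-(n : ℤ)) • x) hkx = D.cl (-(n • x)) h1' := by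
      congr 1
      rw [neg_smul, natCast_zsmul]
    rw [h2, D.neg h1 h1', D.nsmul n hx h1, neg_smul, natCast_zsmul]

end ClMap

theorem step_aux (hS : ExtVanishingCts p) {e t0 : M} {V : Type} [AddCommGroup V]
    [Module (ZMod p) V] [DistribMulAction GQ V] [SMulCommClass GQ (ZMod p) V]
    (D : ClMap p (AddSubgroup.zmultiples e) V)
    (hord : ∀ k : ℤ, k • e = 0 → (p : ℤ) ∣ k)
    (hcyc : ∀ σ : GQ, ∃ j : ℤ, σ • e = ((cycloExp p σ : ℤ) + p * j) • e)
    (ht0 : p • t0 = 0) (ht0C : t0 ∉ AddSubgroup.zmultiples e)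
    (hgen : ∀ t : M, p • t = 0 → ∃ k : ℤ, t - k • t0 ∈ AddSubgroup.zmultiples e)
    (hfix : ∀ (σ : GQ) (t : M), p • t = 0 → σ • t - t ∈ AddSubgroup.zmultiples e)
    (hunr : ∀ ℓ : ℕ, ℓ.Prime → ℓ ≠ p → ∀ A : ValuationSubring Qb, A.LiesOverPrime ℓ →
      ∀ σ ∈ A.inertiaSubgroupIn ℚ, ∀ z : M, p • z ∈ AddSubgroup.zmultiples e →
        σ • z - z ∈ AddSubgroup.zmultiples e)
    (hloc : ∀ A : ValuationSubring Qb, A.LiesOverPrime p → ∃ F : AddSubgroup M,
      (∀ σ ∈ A.decompositionSubgroup ℚ, ∀ x ∈ F, σ • x ∈ F) ∧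
      (∀ x ∈ F, p • x = 0 → x ∈ AddSubgroup.zmultiples e) ∧ ∃ z ∈ F, p • z = e)
    (hex : ∃ z : M, p • z = e)
    (hopen : ∃ L : IntermediateField ℚ Qb, FiniteDimensional ℚ L ∧
      ∀ σ ∈ L.fixingSubgroup, ∀ z : M, p • z ∈ AddSubgroup.zmultiples e → σ • z = z) :
    ∃ e' : M, p • e' = e ∧ ∀ σ : GQ, σ • e' ∈ AddSubgroup.zmultiples e' := by
  set C : AddSubgroup M := AddSubgroup.zmultiples e with hCdef
  have heC : e ∈ C := AddSubgroup.mem_zmultiples e
  have hmemC : ∀ {x : M}, x ∈ C ↔ ∃ k : ℤ, k • e = x := AddSubgroup.mem_zmultiples_iff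
  have hC : ∀ σ : GQ, ∀ x ∈ C, σ • x ∈ C := by
    intro σ x hx
    obtain ⟨k, rfl⟩ := hmemC.mp hx
    obtain ⟨j, hj⟩ := hcyc σ
    have : σ • (k • e) = k • (σ • e) := map_zsmul (DistribSMul.toAddMonoidHom M σ) k e
    rw [this, hj]
    exact C.zsmul_mem (C.zsmul_mem heC _) _
  have hint : ∀ (k : ℤ) (v : V), (k : ZMod p) • v = k • v := fun k v =>
    Int.cast_smul_eq_zsmul (ZMod p) k v
  have hpσ : ∀ (σ : GQ) {x : M}, p • x ∈ C → p • (σ • x) ∈ C := by
    intro σ x hx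
    have : p • (σ • x) = σ • (p • x) := (map_nsmul (DistribSMul.toAddMonoidHom M σ) p x).symm
    rw [this]
    exact hC σ _ hx
  have h0C : p • t0 ∈ C := by rw [ht0]; exact C.zero_mem
  obtain ⟨Cs, hCs⟩ : ∃ Cs : Submodule (ZMod p) (V), Cs = Submodule.span (ZMod p) {D.cl t0 h0C} :=
    ⟨_, rfl⟩
  have hmemCs : ∀ {v : V}, v ∈ Cs ↔ ∃ k : ℤ, k • D.cl t0 h0C = v := by
    intro v
    rw [hCs, Submodule.mem_span_singleton]
    constructor
    · rintro ⟨a, rfl⟩
      obtain ⟨k, rfl⟩ := ZMod.intCast_surjective a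
      exact ⟨k, (hint k _).symm⟩
    · rintro ⟨k, rfl⟩
      exact ⟨k, hint k _⟩
  have hcl0 : D.cl t0 h0C ≠ 0 := fun h => ht0C (D.eq_zero.mp h)
  -- complements
  have hcompl : ∀ z (hz : p • z = e), IsCompl Cs
      (Submodule.span (ZMod p) {D.cl z (show p • z ∈ C from hz ▸ heC)}) ∧
      D.cl z (show p • z ∈ C from hz ▸ heC) ≠ 0 := by
    intro z hz
    have hzC : p • z ∈ C := hz ▸ heC
    have hpz : ∀ k : ℤ, p • (k • z) = k • e := fun k => by rw [smul_comm, hz]
    have hmem : ∀ {v : V}, v ∈ Submodule.span (ZMod p) {D.cl z hzC} ↔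
        ∃ k : ℤ, k • D.cl z hzC = v := by
      intro v
      rw [Submodule.mem_span_singleton]
      constructor
      · rintro ⟨a, rfl⟩
        obtain ⟨k, rfl⟩ := ZMod.intCast_surjective a
        exact ⟨k, (hint k _).symm⟩
      · rintro ⟨k, rfl⟩
        exact ⟨k, hint k _⟩
    refine ⟨⟨?_, ?_⟩, ?_⟩
    · rw [Submodule.disjoint_def]
      intro v hv1 hv2
      obtain ⟨a, rfl⟩ := hmemCs.mp hv1
      obtain ⟨b, hb⟩ := hmem.mp hv2
      have h1 : b • z - a • t0 ∈ C := by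
        rw [← D.zsmul b hzC (p_zsmul_mem b hzC), ← D.zsmul a h0C (p_zsmul_mem a h0C),
          ← sub_eq_zero, ← D.sub (p_zsmul_mem b hzC) (p_zsmul_mem a h0C) (by
            rw [smul_sub]; exact C.sub_mem (p_zsmul_mem b hzC) (p_zsmul_mem a h0C))] at hb
        exact D.eq_zero.mp hb
      obtain ⟨k, hk⟩ := hmemC.mp h1
      have h2 : (b - p * k) • e = 0 := by
        have h3 := congrArg (fun x => p • x) hk
        simp only [smul_sub] at h3
        rw [hpz, smul_comm p a t0, ht0, smul_zero, sub_zero] at h3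
        rw [sub_smul, mul_smul, natCast_zsmul, h3, sub_self]
      have h3 : (p : ℤ) ∣ b := by
        have := hord _ h2
        exact (Int.dvd_iff_dvd_of_dvd_sub this).mpr (dvd_mul_right _ _)
      rw [← hb, ← hint, (ZMod.intCast_zmod_eq_zero_iff_dvd b p).mpr h3, zero_smul]
    · rw [codisjoint_iff, eq_top_iff]
      intro v _
      obtain ⟨u, hu, rfl⟩ := D.ex v
      obtain ⟨k, hk⟩ := hmemC.mp hu
      have h1 : p • (u - k • z) = 0 := by
        rw [smul_sub, hpz, hk, sub_self]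
      obtain ⟨k', hk'⟩ := hgen _ h1
      rw [Submodule.mem_sup]
      refine ⟨k' • D.cl t0 h0C, hmemCs.mpr ⟨k', rfl⟩, k • D.cl z hzC, hmem.mpr ⟨k, rfl⟩, ?_⟩
      rw [← D.zsmul k' h0C (p_zsmul_mem k' h0C), ← D.zsmul k hzC (p_zsmul_mem k hzC),
        ← D.add _ _ (by
          rw [smul_add]; exact C.add_mem (p_zsmul_mem k' h0C) (p_zsmul_mem k hzC))]
      refine (D.congr ?_).symm
      rw [sub_add_eq_sub_sub_swap]
      exact hk'
    · intro h
      obtain ⟨k, hk⟩ := hmemC.mp (D.eq_zero.mp h)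
      have h2 : (1 - p * k) • e = 0 := by
        rw [sub_smul, one_smul, mul_smul, natCast_zsmul, hk, hz, sub_self]
      have h3 := hord _ h2
      have h4 : (p : ℤ) ∣ 1 := (Int.dvd_iff_dvd_of_dvd_sub h3).mpr (dvd_mul_right _ _)
      exact (Nat.prime_iff_prime_int.mp hp.out).not_dvd_one h4
  have hcardV : Nat.card (V) = p ^ 2 := by
    obtain ⟨z, hz⟩ := hex
    obtain ⟨h1, h2⟩ := hcompl z hz
    rw [card_of_isCompl h1, hCs, card_span_singleton hcl0, card_span_singleton h2, sq]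
  have hadm : IsAdmissibleExtensionCts p (V) Cs := by
    refine { stable := ?_, fixed_sub := ?_, cyclo_quot := ?_, card_sub := ?_, card_total := hcardV,
             unramified_outside := ?_, locally_split := ?_, open_kernel := ?_ }
    · intro σ x hx
      obtain ⟨k, rfl⟩ := hmemCs.mp hx
      have h1 : σ • (k • D.cl t0 h0C) = k • (σ • D.cl t0 h0C) :=
        map_zsmul (DistribSMul.toAddMonoidHom (V) σ) k _
      rw [h1, D.smul σ t0 h0C (hpσ σ h0C), D.congr (hy := h0C) (hfix σ t0 ht0)]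
      exact hmemCs.mpr ⟨k, rfl⟩
    · intro σ x hx
      obtain ⟨k, rfl⟩ := hmemCs.mp hx
      have h1 : σ • (k • D.cl t0 h0C) = k • (σ • D.cl t0 h0C) :=
        map_zsmul (DistribSMul.toAddMonoidHom (V) σ) k _
      rw [h1, D.smul σ t0 h0C (hpσ σ h0C), D.congr (hy := h0C) (hfix σ t0 ht0)]
    · intro σ v
      obtain ⟨u, hu, rfl⟩ := D.ex v
      obtain ⟨k, hk⟩ := hmemC.mp hu
      obtain ⟨j, hj⟩ := hcyc σ
      have h1 : p • (σ • u - (cycloExp p σ : ℤ) • u - (k * j) • e) = 0 := by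
        have h2 : p • (σ • u) = σ • (p • u) :=
          (map_nsmul (DistribSMul.toAddMonoidHom M σ) p u).symm
        have h3 : σ • (k • e) = k • (σ • e) := map_zsmul (DistribSMul.toAddMonoidHom M σ) k e
        rw [smul_sub, smul_sub, h2, smul_comm p (cycloExp p σ : ℤ) u, ← hk, h3, hj, smul_smul,
          smul_smul, ← sub_smul, ← natCast_zsmul, smul_smul, ← sub_smul]
        rw [show k * ((cycloExp p σ : ℤ) + p * j) - (cycloExp p σ : ℤ) * k - p * (k * j) = 0 by ring,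
          zero_smul]
      obtain ⟨k', hk'⟩ := hgen _ h1
      refine hmemCs.mpr ⟨k', ?_⟩
      have h2 : ((cycloExp p σ : ℕ) : ZMod p) • D.cl u hu = (cycloExp p σ : ℤ) • D.cl u hu := by
        rw [← hint]; push_cast; rfl
      rw [h2, D.smul σ u hu (hpσ σ hu), ← D.zsmul _ hu (p_zsmul_mem _ hu),
        ← D.zsmul k' h0C (p_zsmul_mem k' h0C),
        ← D.sub _ _ (by rw [smul_sub]; exact C.sub_mem (hpσ σ hu) (p_zsmul_mem _ hu))]
      refine (D.congr ?_).symm
      have h5 : σ • u - (cycloExp p σ : ℤ) • u - k' • t0 =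
          (σ • u - (cycloExp p σ : ℤ) • u - (k * j) • e - k' • t0) + (k * j) • e := by abel
      rw [h5]
      exact C.add_mem hk' (C.zsmul_mem heC _)
    · rw [hCs]; exact card_span_singleton hcl0
    · intro ℓ hℓ hℓp A hA σ hσ v
      obtain ⟨u, hu, rfl⟩ := D.ex v
      rw [D.smul σ u hu (hpσ σ hu)]
      exact D.congr (hunr ℓ hℓ hℓp A hA σ hσ u hu)
    · intro A hA
      obtain ⟨F, hF1, hF2, z, hzF, hz⟩ := hloc A hA
      have hzC : p • z ∈ C := hz ▸ heC
      refine ⟨Submodule.span (ZMod p) {D.cl z hzC}, ?_, (hcompl z hz).1⟩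
      intro σ hσ x hx
      obtain ⟨a, rfl⟩ := Submodule.mem_span_singleton.mp hx
      obtain ⟨j, hj⟩ := hcyc σ
      set m : ℤ := (cycloExp p σ : ℤ) + p * j
      have h1 : σ • z - m • z ∈ C := by
        refine hF2 _ (F.sub_mem (hF1 σ hσ z hzF) (F.zsmul_mem hzF m)) ?_
        have h2 : p • (σ • z) = σ • (p • z) :=
          (map_nsmul (DistribSMul.toAddMonoidHom M σ) p z).symm
        rw [smul_sub, h2, smul_comm p m z, hz, hj, sub_self]
      have h2 : σ • D.cl z hzC = m • D.cl z hzC := by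
        rw [D.smul σ z hzC (hpσ σ hzC), D.congr h1 (hy := p_zsmul_mem m hzC), D.zsmul m hzC]
      rw [smul_comm, h2, ← hint]
      exact Submodule.smul_mem _ _ (Submodule.smul_mem _ _ (Submodule.mem_span_singleton_self _))
    · obtain ⟨L, hL, hLz⟩ := hopen
      let H : Subgroup GQ :=
        { carrier := {σ | ∀ v : V, σ • v = v}
          one_mem' := fun v => one_smul _ v
          mul_mem' := fun {a b} ha hb v => by rw [mul_smul, hb v, ha v]
          inv_mem' := fun {a} ha v => by rw [inv_smul_eq_iff, ha v] }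
      have hle : L.fixingSubgroup ≤ H := by
        intro σ hσ v
        obtain ⟨u, hu, rfl⟩ := D.ex v
        rw [D.smul σ u hu (hpσ σ hu)]
        refine D.congr ?_
        rw [hLz σ hσ u hu, sub_self]
        exact C.zero_mem
      exact Subgroup.isOpen_mono hle (IntermediateField.fixingSubgroup_isOpen L)
  obtain ⟨C'', hstab, hcomp⟩ := hS (V) Cs hadm
  obtain ⟨z, hz⟩ := hex
  have hzC : p • z ∈ C := hz ▸ heC
  obtain ⟨v, hv, w, hw, hvw⟩ : ∃ v ∈ Cs, ∃ w ∈ C'', v + w = D.cl z hzC := by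
    have : D.cl z hzC ∈ Cs ⊔ C'' := by rw [hcomp.sup_eq_top]; trivial
    exact Submodule.mem_sup.mp this
  obtain ⟨k, rfl⟩ := hmemCs.mp hv
  set e' : M := z - k • t0 with he'
  have hpe' : p • e' = e := by
    rw [he', smul_sub, hz, smul_comm, ht0, smul_zero, sub_zero]
  have he'C : p • e' ∈ C := hpe' ▸ heC
  have hcle' : D.cl e' he'C ∈ C'' := by
    have h1 : D.cl e' he'C = w := by
      rw [D.sub hzC (p_zsmul_mem k h0C) he'C, ← hvw, D.zsmul k h0C, add_sub_cancel_left]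
    rw [h1]; exact hw
  refine ⟨e', hpe', fun σ => ?_⟩
  obtain ⟨j, hj⟩ := hcyc σ
  set m : ℤ := (cycloExp p σ : ℤ) + p * j
  have h1 : p • (σ • e' - m • e') = 0 := by
    have h2 : p • (σ • e') = σ • (p • e') :=
      (map_nsmul (DistribSMul.toAddMonoidHom M σ) p e').symm
    rw [smul_sub, h2, smul_comm p m e', hpe', hj, sub_self]
  have h1C : p • (σ • e' - m • e') ∈ C := by rw [h1]; exact C.zero_mem
  obtain ⟨k', hk'⟩ := hgen _ h1
  have h2 : D.cl (σ • e' - m • e') h1C ∈ Cs := by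
    refine hmemCs.mpr ⟨k', ?_⟩
    rw [← D.zsmul k' h0C (p_zsmul_mem k' h0C)]
    exact (D.congr hk').symm
  have h3 : D.cl (σ • e' - m • e') h1C ∈ C'' := by
    rw [D.sub (hpσ σ he'C) (p_zsmul_mem m he'C) h1C, D.zsmul m he'C, ← D.smul σ e' he'C, ← hint]
    exact Submodule.sub_mem _ (hstab σ _ hcle') (Submodule.smul_mem _ _ hcle')
  have h4 : σ • e' - m • e' ∈ C :=
    D.eq_zero.mp (Submodule.disjoint_def.mp hcomp.disjoint _ h2 h3)
  obtain ⟨a, ha⟩ := hmemC.mp h4
  refine AddSubgroup.mem_zmultiples_iff.mpr ⟨m + a * p, ?_⟩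
  rw [add_smul, mul_smul, natCast_zsmul, hpe', ha]
  abel


theorem step (hS : ExtVanishingCts p) {e t0 : M}
    (hord : ∀ k : ℤ, k • e = 0 → (p : ℤ) ∣ k)
    (hcyc : ∀ σ : GQ, ∃ j : ℤ, σ • e = ((cycloExp p σ : ℤ) + p * j) • e)
    (ht0 : p • t0 = 0) (ht0C : t0 ∉ AddSubgroup.zmultiples e)
    (hgen : ∀ t : M, p • t = 0 → ∃ k : ℤ, t - k • t0 ∈ AddSubgroup.zmultiples e)
    (hfix : ∀ (σ : GQ) (t : M), p • t = 0 → σ • t - t ∈ AddSubgroup.zmultiples e)
    (hunr : ∀ ℓ : ℕ, ℓ.Prime → ℓ ≠ p → ∀ A : ValuationSubring Qb, A.LiesOverPrime ℓ →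
      ∀ σ ∈ A.inertiaSubgroupIn ℚ, ∀ z : M, p • z ∈ AddSubgroup.zmultiples e →
        σ • z - z ∈ AddSubgroup.zmultiples e)
    (hloc : ∀ A : ValuationSubring Qb, A.LiesOverPrime p → ∃ F : AddSubgroup M,
      (∀ σ ∈ A.decompositionSubgroup ℚ, ∀ x ∈ F, σ • x ∈ F) ∧
      (∀ x ∈ F, p • x = 0 → x ∈ AddSubgroup.zmultiples e) ∧ ∃ z ∈ F, p • z = e)
    (hex : ∃ z : M, p • z = e)
    (hopen : ∃ L : IntermediateField ℚ Qb, FiniteDimensional ℚ L ∧
      ∀ σ ∈ L.fixingSubgroup, ∀ z : M, p • z ∈ AddSubgroup.zmultiples e → σ • z = z) :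
    ∃ e' : M, p • e' = e ∧ ∀ σ : GQ, σ • e' ∈ AddSubgroup.zmultiples e' := by
  have heC : e ∈ AddSubgroup.zmultiples e := AddSubgroup.mem_zmultiples e
  have hC : ∀ σ : GQ, ∀ x ∈ AddSubgroup.zmultiples e, σ • x ∈ AddSubgroup.zmultiples e := by
    intro σ x hx
    obtain ⟨k, rfl⟩ := AddSubgroup.mem_zmultiples_iff.mp hx
    obtain ⟨j, hj⟩ := hcyc σ
    have : σ • (k • e) = k • (σ • e) := map_zsmul (DistribSMul.toAddMonoidHom M σ) k e
    rw [this, hj]
    exact AddSubgroup.zsmul_mem _ (AddSubgroup.zsmul_mem _ heC _) _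
  let act := vAct (G := GQ) (AddSubgroup.zmultiples e) p hC
  let md := vMod (AddSubgroup.zmultiples e) p
  have comm : @SMulCommClass GQ (ZMod p) (VV (AddSubgroup.zmultiples e) p) _ _ :=
    ⟨fun σ a v => (ZMod.map_smul (DistribSMul.toAddMonoidHom _ σ) a v)⟩
  exact @step_aux p _ M _ _ hS e t0 (VV (AddSubgroup.zmultiples e) p) _ md act comm
    { cl := cl
      eq_zero := cl_eq_zero
      ex := exists_cl
      add := cl_add
      smul := fun _ _ _ _ => rfl } hord hcyc ht0 ht0C hgen hfix hunr hloc hex hopen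

end Step

end Fermat.Agent.Iter
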