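import Fermat.Agent.ERep.Trace
import Fermat.Prelude.Def_ExtCitation_KummerBridge

set_option autoImplicit false

/-!
# The character on a stable line with trivial quotient
-/

namespace Fermat.Agent.Iter

open WeierstrassCurve WeierstrassCurve.Affine WeierstrassCurve.Affine.Point
open Fermat.Agent.Tate Fermat.Agent.QuadRep Fermat.Agent.ERep ExtCitation

local notation "Qb" => AlgebraicClosure ℚ
local notation "GQ" => AlgebraicClosure ℚ ≃ₐ[ℚ] AlgebraicClosure ℚ

section Abs

variable {p : ℕ} [hp : Fact p.Prime] {T : Type*} [AddCommGroup T] [Module (ZMod p) T]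
  [DistribMulAction GQ T] [SMulCommClass GQ (ZMod p) T]

theorem line_char_dichotomy {N : Submodule (ZMod p) T} {x₁ : T} (hx₁ : N = Submodule.span (ZMod p) {x₁})
    (h10 : x₁ ≠ 0) (htop : N ≠ ⊤) (hstab : ∀ (σ : GQ), ∀ x ∈ N, σ • x ∈ N)
    (htriv : ∀ (σ : GQ) (x : T), σ • x - x ∈ N)
    (hquad : ∀ σ : GQ, ∃ t : ZMod p, ∀ x : T,
      σ • σ • x - t • σ • x + (cycloChar p σ : ZMod p) • x = 0) :
    (∀ σ : GQ, σ • x₁ = x₁) ∨ (∀ σ : GQ, σ • x₁ = (cycloChar p σ : ZMod p) • x₁) := by
  obtain ⟨y, hy⟩ : ∃ y : T, y ∉ N := by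
    by_contra h
    push Not at h
    exact htop (eq_top_iff.mpr fun y _ => h y)
  have hcase : ∀ σ : GQ, σ • x₁ = x₁ ∨ σ • x₁ = (cycloChar p σ : ZMod p) • x₁ := by
    intro σ
    obtain ⟨t, ht⟩ := hquad σ
    -- on the quotient
    have h1 : 1 - t + (cycloChar p σ : ZMod p) = 0 := by
      by_contra hne
      apply hy
      have h2 := ht y
      have h3 := htriv σ y
      have h4 := hstab σ _ h3
      have h5 : (1 - t + (cycloChar p σ : ZMod p)) • y ∈ N := by
        have e : (1 - t + (cycloChar p σ : ZMod p)) • y =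
            -(σ • (σ • y - y)) - (1 - t) • (σ • y - y) := by
          have e2 : σ • (σ • y - y) = σ • σ • y - σ • y := smul_sub _ _ _
          have e3 : (cycloChar p σ : ZMod p) • y = - (σ • σ • y) + t • σ • y := by
            rw [← sub_eq_zero, ← h2]; abel
          rw [e2, add_smul, e3]
          generalize σ • σ • y = b
          generalize σ • y = a
          module
        rw [e]
        exact N.sub_mem (N.neg_mem h4) (N.smul_mem _ h3)
      have h6 := N.smul_mem (1 - t + (cycloChar p σ : ZMod p))⁻¹ h5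
      rwa [smul_smul, inv_mul_cancel₀ hne, one_smul] at h6
    obtain ⟨m, hm⟩ : ∃ m : ZMod p, m • x₁ = σ • x₁ := by
      have : σ • x₁ ∈ N := hstab σ _ (by rw [hx₁]; exact Submodule.mem_span_singleton_self _)
      rw [hx₁] at this
      exact Submodule.mem_span_singleton.mp this
    have h2 := ht x₁
    rw [← hm, smul_comm σ m x₁, ← hm, smul_smul, smul_smul, ← sub_smul, ← add_smul,
      smul_eq_zero] at h2
    have h3 := h2.resolve_right h10
    have h4 : (m - 1) * (m - (cycloChar p σ : ZMod p)) = 0 := by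
      have e : t = 1 + (cycloChar p σ : ZMod p) := by linear_combination -h1
      rw [e] at h3
      linear_combination h3
    rcases mul_eq_zero.mp h4 with h | h
    · left; rw [← hm, sub_eq_zero.mp h, one_smul]
    · right; rw [← hm, sub_eq_zero.mp h]
  by_contra hcon
  rw [not_or] at hcon
  obtain ⟨hcon1, hcon2⟩ := hcon
  push Not at hcon1 hcon2
  obtain ⟨σ, hσ⟩ := hcon1
  obtain ⟨τ, hτ⟩ := hcon2
  have hσ2 := (hcase σ).resolve_left hσ
  have hτ1 := (hcase τ).resolve_right hτ
  rcases hcase (σ * τ) with h | h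
  · rw [mul_smul, hτ1] at h
    exact hσ h
  · rw [mul_smul, hτ1, hσ2, map_mul, Units.val_mul] at h
    apply hτ
    rw [hτ1]
    have h2 := congrArg (fun z => ((cycloChar p σ)⁻¹ : (ZMod p)ˣ) • z) h
    simp only [Units.smul_def, smul_smul] at h2
    rw [← mul_assoc, ← Units.val_mul, inv_mul_cancel, Units.val_one, one_mul, one_smul] at h2
    exact h2

end Abs

section Curve

variable (E : WeierstrassCurve ℚ) [E.IsElliptic] (p : ℕ) [hp : Fact p.Prime]
  {W : WeierstrassCurve ℤ} (hWE : W.IsIntegralModelOf E)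

include hWE in
theorem quad_torsion (σ : GQ) : ∃ t : ZMod p, ∀ x : Submodule.torsionBy ℤ (E⁄Qb).Point (p : ℤ),
    σ • σ • x - t • σ • x + (cycloChar p σ : ZMod p) • x = 0 := by
  obtain ⟨t, ht⟩ := exists_relE E p hWE
  refine ⟨((PadicInt.toZModPow 1 (t σ)).val : ZMod p), fun x => ?_⟩
  have hx : (x : (E⁄Qb).Point) ∈ tor p (E⁄Qb).Point 1 := (tor_one_iff E p).mp x.2
  obtain ⟨u, hu⟩ := (tb E p).pr_surjective 1 ⟨x, hx⟩
  have h1 := congrArg (fun f : Module.End ℤ_[p] (Fin 2 → ℤ_[p]) => (tb E p).pr 1 (f u)) (ht σ)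
  simp only [LinearMap.add_apply, LinearMap.sub_apply, LinearMap.smul_apply, Module.End.mul_apply,
    Module.End.one_apply, LinearMap.zero_apply, map_add, map_sub, _root_.map_zero, TBasis.pr_smul] at h1
  have h2 := congrArg Subtype.val h1
  simp only [AddSubgroup.coe_add, AddSubgroup.coe_sub, AddSubgroup.coe_nsmul, pr_repE,
    AddSubgroup.coe_zero] at h2
  have h3 : ((tb E p).pr 1 u : (E⁄Qb).Point) = x := congrArg Subtype.val hu
  rw [h3] at h2
  apply Subtype.ext
  have hc : ((PadicInt.toZModPow 1 (cycE p σ)).val : ZMod p) = (cycloChar p σ : ZMod p) := by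
    have hcyc := cyc_sub_mem (O := ℤ_[p]) (p_mem p) 1 (cycloExp p σ) σ (by
      intro μ hμ
      have : NeZero p := ⟨hp.out.ne_zero⟩
      rw [pow_one] at hμ
      have h1 : (Units.mkOfMulEqOne μ (μ ^ (p - 1)) (by
          rw [← pow_succ', Nat.sub_add_cancel hp.out.one_le, hμ])) ∈
          rootsOfUnity p (AlgebraicClosure ℚ) := by
        rw [mem_rootsOfUnity]
        ext
        exact hμ
      exact modularCyclotomicCharacter.spec (AlgebraicClosure ℚ)
        (ExtCitation.card_rootsOfUnity_eq_self p)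
        (σ : AlgebraicClosure ℚ ≃+* AlgebraicClosure ℚ) h1)
    rw [PadicInt.maximalIdeal_eq_span_p, Ideal.span_singleton_pow] at hcyc
    have hker : PadicInt.toZModPow 1 (cycE p σ - (cycloExp p σ : ℤ_[p])) = 0 := by
      have := PadicInt.ker_toZModPow (p := p) 1
      rw [← RingHom.mem_ker, this]
      exact_mod_cast hcyc
    rw [map_sub, sub_eq_zero, map_natCast] at hker
    rw [hker, coe_cycloChar]
    have e1 : ((((cycloExp p σ : ℕ) : ZMod (p ^ 1)).val : ℕ) : ZMod p) = (cycloExp p σ : ZMod p) := by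
      rw [ZMod.val_natCast]
      rw [ZMod.natCast_eq_natCast_iff, pow_one]
      exact Nat.mod_modEq _ _
    exact e1
  have e : ∀ (n : ℕ) (y : Submodule.torsionBy ℤ (E⁄Qb).Point (p : ℤ)),
      (((n : ZMod p) • y : Submodule.torsionBy ℤ (E⁄Qb).Point (p : ℤ)) : (E⁄Qb).Point) =
        n • (y : (E⁄Qb).Point) := by
    intro n y
    rw [Nat.cast_smul_eq_nsmul]
    rfl
  rw [← hc]
  change σ • σ • (x : (E⁄Qb).Point) - _ + _ = 0
  rw [e, e]
  exact h2

end Curve

end Fermat.Agent.Iter
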