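import Fermat.Agent.ECP.Exists
import Fermat.Agent.ECP.LineVal

set_option autoImplicit false

/-!
# The kernel of reduction is `p`-divisible
-/

namespace Fermat.Agent.Iter

open WeierstrassCurve WeierstrassCurve.Affine WeierstrassCurve.Affine.Point Polynomial
open Fermat.Agent.EC (IsInt)
open Fermat.Agent.ECP

variable {K Γ₀ : Type*} [Field K] [LinearOrderedCommGroupWithZero Γ₀] {v : Valuation K Γ₀}
  {W : WeierstrassCurve.Affine K}

lemma intCoeff_Φ (hW : IsInt v W) (n : ℤ) : IntCoeff v (W.Φ n) := by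
  obtain ⟨W₀, rfl⟩ := exists_integral_model hW
  rw [WeierstrassCurve.map_Φ]
  exact intCoeff_map _

/-- a monic integral polynomial does not vanish outside the unit disc -/
lemma eval_ne_zero_of_one_lt [IsAlgClosed K] {f : K[X]} (hf : IntCoeff v f) (hlc : f.leadingCoeff = 1)
    {r : K} (hr : 1 < v r) : f.eval r ≠ 0 := fun h =>
  absurd (root_le_one hf (by rw [hlc, _root_.map_one]) h) (not_le.mpr hr)

lemma exists_root_big [IsAlgClosed K] {f : K[X]} (hlc : f.leadingCoeff = 1) {e : K} (he : v e ≤ 1)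
    (hfe : 1 < v (f.eval e)) : ∃ r, f.eval r = 0 ∧ 1 < v r := by
  by_contra hcon
  push Not at hcon
  have hsplit := (IsAlgClosed.splits f).eq_prod_roots
  rw [hsplit, eval_mul, eval_C, hlc, one_mul] at hfe
  have hle : v (eval e ((f.roots.map fun a => X - C a).prod)) ≤ 1 := by
    rw [eval_multiset_prod, Multiset.map_map, map_multiset_prod, Multiset.map_map]
    refine Multiset.prod_induction (fun x => x ≤ 1) _ (fun a b ha hb => mul_le_one' ha hb)
      le_rfl ?_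
    intro x hx
    obtain ⟨a, ha, rfl⟩ := Multiset.mem_map.mp hx
    have := (Polynomial.mem_roots'.mp ha).2
    simp only [Function.comp_apply, eval_sub, eval_X, eval_C]
    exact (v.map_sub _ _).trans (max_le he (hcon a this))
  exact absurd hfe (not_lt.mpr hle)

/-- a point with given `x`-coordinate -/
lemma exists_point [IsAlgClosed K] (hΔ : W.Δ ≠ 0) (r : K) : ∃ P : W.Point, P ≠ 0 ∧ xc P = r := by
  obtain ⟨y, hy⟩ : ∃ y, W.Equation r y := by
    let q : K[X] := X ^ 2 + C (W.a₁ * r + W.a₃) * X - C (r ^ 3 + W.a₂ * r ^ 2 + W.a₄ * r + W.a₆)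
    have hq : q.degree ≠ 0 := by
      have : q.degree = 2 := by
        have : q = C 1 * X ^ 2 + C (W.a₁ * r + W.a₃) * X +
            C (-(r ^ 3 + W.a₂ * r ^ 2 + W.a₄ * r + W.a₆)) := by
          simp only [q, C_1, one_mul, C_neg]; ring
        rw [this]
        exact degree_quadratic one_ne_zero
      rw [this]; norm_num
    obtain ⟨y, hy⟩ := IsAlgClosed.exists_root q hq
    refine ⟨y, ?_⟩
    rw [Affine.equation_iff]
    have : q.eval y = 0 := hy
    simp only [q, eval_sub, eval_add, eval_mul, eval_pow, eval_X, eval_C] at this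
    linear_combination this
  have hns : W.Nonsingular r y := (Affine.equation_iff_nonsingular_of_Δ_ne_zero hΔ).mp hy
  exact ⟨Point.some r y hns, Point.some_ne_zero hns, rfl⟩

variable [DecidableEq K]

/-- `x(pQ) ψ_p(Q)² = φ_p(x(Q))` -/
lemma eval_Φ {p : ℕ} (hp : p.Prime) (hp2 : p ≠ 2) {Q : W.Point} (hQ0 : Q ≠ 0)
    (hQ : ∀ n : ℕ, 1 ≤ n → n ≤ p → n • Q ≠ 0) :
    (W.Φ p).eval (xc Q) = xc (p • Q) * (W.preΨ' p).eval (xc Q) ^ 2 ∧
      (W.preΨ' p).eval (xc Q) ≠ 0 := by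
  have hodd : ¬ Even p := by
    rw [Nat.not_even_iff_odd]; exact hp.odd_of_ne_two hp2
  obtain ⟨k, rfl⟩ : ∃ k, p = k + 1 := ⟨p - 1, by have := hp.two_le; omega⟩
  have hk : Even k := by
    by_contra h
    exact hodd (Nat.even_add_one.mpr h)
  have h1 := nd (P := Q) (k + 1) hQ (k + 1) (by omega) le_rfl
  have e1 : ((k + 1 : ℕ) : ℤ) + 1 = ((k + 2 : ℕ) : ℤ) := by push_cast; ring
  have e2 : ((k + 1 : ℕ) : ℤ) - 1 = ((k : ℕ) : ℤ) := by push_cast; ring
  have hk2 : Even (k + 2) := hk.add even_two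
  rw [e1, e2, wc_eq_preΨ' hQ0, wc_eq_preΨ' hQ0, wc_eq_preΨ' hQ0, if_neg hodd, if_pos hk,
    if_pos hk2, mul_one] at h1
  refine ⟨?_, h1.1⟩
  have h2 : W.Φ ((k + 1 : ℕ) : ℤ) = X * W.preΨ' (k + 1) ^ 2 * (if Even k then 1 else W.Ψ₂Sq) -
      W.preΨ' (k + 2) * W.preΨ' k * (if Even k then W.Ψ₂Sq else 1) := by
    push_cast
    exact W.Φ_ofNat k
  rw [h2, if_pos hk, if_pos hk]
  simp only [eval_sub, eval_mul, eval_pow, eval_X, mul_one]
  have h3 := h1.2
  have h4 : tc Q ^ 2 = W.Ψ₂Sq.eval (xc Q) := tc_sq' hQ0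
  rw [← h4]
  linear_combination h3

theorem exists_mem_E1_nsmul_eq [IsAlgClosed K] (hW : IsInt v W) (hΔ : W.Δ ≠ 0) {p : ℕ}
    (hp : p.Prime) (hp2 : p ≠ 2) (hvp : v (p : K) < 1) {e : K} (he : v e ≤ 1)
    (h2 : W.Ψ₂Sq.eval e = 0) (h3 : v (W.Ψ₃.eval e) = 1) {P : W.Point} (hP : P ∈ E1 v hW) :
    ∃ Q ∈ E1 v hW, p • Q = P := by
  by_cases hP0 : P = 0
  · exact ⟨0, zero_mem _, by rw [smul_zero, hP0]⟩
  have hodd : ¬ Even p := by
    rw [Nat.not_even_iff_odd]; exact hp.odd_of_ne_two hp2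
  have hx1 : 1 < v (xc P) := (mem_E1_iff' hW hP0).mp hP
  set f : K[X] := W.Φ p - C (xc P) * W.preΨ' p ^ 2 with hf
  have hdeg : (C (xc P) * W.preΨ' p ^ 2).degree < (W.Φ (p : ℤ)).degree := by
    apply degree_lt_degree
    rw [W.natDegree_Φ, Int.natAbs_natCast]
    refine lt_of_le_of_lt (natDegree_C_mul_le _ _) (lt_of_le_of_lt natDegree_pow_le ?_)
    have h4 := W.natDegree_preΨ'_le p
    rw [if_neg hodd] at h4
    have h5 := Nat.mul_le_mul_left 2 h4
    have h6 := Nat.div_mul_le_self (p ^ 2 - 1) 2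
    have h7 : 0 < p ^ 2 := pow_pos hp.pos 2
    omega
  have hlc : f.leadingCoeff = 1 := by
    rw [hf, sub_eq_add_neg, add_comm, leadingCoeff_add_of_degree_lt (by rwa [degree_neg]),
      W.leadingCoeff_Φ]
  have hfe : 1 < v (f.eval e) := by
    rw [hf, eval_sub, eval_mul, eval_C, eval_pow]
    have h4 : v ((W.Φ (p : ℤ)).eval e) ≤ 1 := (intCoeff_Φ hW _).eval_le he
    have h5 : v (xc P * (W.preΨ' p).eval e ^ 2) = v (xc P) := by
      rw [map_mul, map_pow, val_preΨ'_eval_two_torsion h2 h3 p hodd, one_pow, mul_one]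
    rw [Valuation.map_sub_eq_of_lt_right v (by rw [h5]; exact lt_of_le_of_lt h4 hx1), h5]
    exact hx1
  obtain ⟨r, hr, hvr⟩ := exists_root_big hlc he hfe
  obtain ⟨Q, hQ0, hQx⟩ := exists_point hΔ r
  have hQ1 : Q ∈ E1 v hW := (mem_E1_iff' hW hQ0).mpr (by rw [hQx]; exact hvr)
  have hr' : (W.Φ (p : ℤ)).eval r = xc P * (W.preΨ' p).eval r ^ 2 := by
    rw [hf, eval_sub, eval_mul, eval_C, eval_pow] at hr
    exact sub_eq_zero.mp hr
  have hΦr : (W.Φ (p : ℤ)).eval r ≠ 0 :=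
    eval_ne_zero_of_one_lt (intCoeff_Φ hW _) (W.leadingCoeff_Φ _) hvr
  have hQn : ∀ n : ℕ, 1 ≤ n → n ≤ p → n • Q ≠ 0 := by
    intro n hn1 hnp h0
    rcases hnp.lt_or_eq with hlt | rfl
    · exact hQ0 (hW.eq_zero_of_inE1 ((mem_E1_iff hW).mp hQ1) (val_nat_eq_one_of_lt hp hvp hn1 hlt) h0)
    · have := preΨ'_eval_eq_zero hp hp2 hQ0 h0
      rw [hQx] at this
      rw [this] at hr'
      exact hΦr (by rw [hr']; simp)
  obtain ⟨h4, h5⟩ := eval_Φ hp hp2 hQ0 hQn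
  rw [hQx, hr'] at h4
  rw [hQx] at h5
  have h6 : xc P = xc (p • Q) := mul_right_cancel₀ (pow_ne_zero 2 h5) h4
  rcases (xc_eq_iff hP0 (hQn p hp.one_lt.le le_rfl)).mp h6 with h | h
  · exact ⟨Q, hQ1, h.symm⟩
  · exact ⟨-Q, neg_mem hQ1, by rw [smul_neg]; exact h.symm⟩

end Fermat.Agent.Iter
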