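import Fermat.Agent.Iter.Node
import Fermat.Agent.ECP.FreyLocal
import Fermat.Agent.ELoc.Frey

set_option autoImplicit false

/-!
# The Frey curve has a node or good reduction at every prime
-/

namespace Fermat.Agent.Iter

open WeierstrassCurve WeierstrassCurve.Affine WeierstrassCurve.Affine.Point
open Fermat.Agent.EC (IsInt InE1 xX xZ TrivMod NS comp nrm IsKummer)
open Fermat.Agent.ECP Fermat.Agent.MazX

local notation "Qb" => AlgebraicClosure ℚ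
local notation "GQ" => AlgebraicClosure ℚ ≃ₐ[ℚ] AlgebraicClosure ℚ

/-- node data with a rational `2`-torsion point -/
structure RatNode (P : FreyPackage) (A : ValuationSubring Qb) (T : (P.freyCurve⁄Qb).Point)
    (t β : Qb) : Prop where
  T0 : T ≠ 0
  T2 : (2 : ℕ) • T = 0
  xT : ∀ σ : GQ, σ (xc T) = xc T
  tt : ∀ σ : GQ, σ t = t
  node : NodeData A.valuation (P.freyCurve⁄Qb) (xc T) t β

variable (P : FreyPackage)

lemma ratNode_of_node {A : ValuationSubring Qb} {e t β : Qb}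
    (hr : ∃ e' t' : ℚ, e = algebraMap ℚ Qb e' ∧ t = algebraMap ℚ Qb t')
    (h : NodeData A.valuation (P.freyCurve⁄Qb) e t β) : ∃ T, RatNode P A T t β := by
  obtain ⟨e', t', he, ht⟩ := hr
  obtain ⟨T, hT0, hT2, hTe⟩ := exists_two_torsion h (frey_Δ_ne_zero P Qb)
  subst hTe
  exact ⟨T, hT0, hT2, fun σ => by rw [he]; exact σ.commutes e', fun σ => by
    rw [ht]; exact σ.commutes t', h⟩

theorem frey_node {q : ℕ} (hq : q.Prime) {A : ValuationSubring Qb} (hA : A.LiesOverPrime q)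
    (hd : (q : ℤ) ∣ P.a * P.b * P.c) : ∃ T t β, RatNode P A T t β := by
  set v := A.valuation with hvdef
  have hvq : v (q : Qb) < 1 := A.mem_nonunits_iff.mp hA
  have hqZ : Prime (q : ℤ) := Int.prime_iff_natAbs_prime.mpr (by simpa using hq)
  have hp0 : P.p ≠ 0 := P.hp0
  have hnode : ∀ e t β : Qb, (∃ e' t' : ℚ, e = algebraMap ℚ Qb e' ∧ t = algebraMap ℚ Qb t') →
      NodeData v (P.freyCurve⁄Qb) e t β → ∃ T t β, RatNode P A T t β := by
    intro e t β hr h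
    obtain ⟨T, hT⟩ := ratNode_of_node P hr h
    exact ⟨T, t, β, hT⟩
  have cab : ¬ ((q : ℤ) ∣ P.a ∧ (q : ℤ) ∣ P.b) := by
    rintro ⟨h1, h2⟩
    have h3 := dvd_gcd h1 h2
    rw [P.hgcdab] at h3
    exact hqZ.not_isUnit (isUnit_of_dvd_one h3)
  by_cases hq2 : q = 2
  · subst hq2
    have hv2 : v (2 : Qb) < 1 := by exact_mod_cast hvq
    have hva : v (P.a : Qb) = 1 := EC.val_odd hv2 (frey_not_two_dvd_a P)
    have hvb : v (P.b : Qb) < 1 := EC.val_even hv2 (frey_two_dvd_b P)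
    refine hnode 0 0 (-((P.a : Qb) ^ P.p) * ((P.b : Qb) ^ P.p) / 16) ⟨0, 0, by simp, by simp⟩
      (frey_node_zero P v ?_ ?_)
    · obtain ⟨c, hc⟩ := frey_dvd_b_pow P
      have : -((P.a : Qb) ^ P.p) * ((P.b : Qb) ^ P.p) / 16 = 2 * ((-(P.a ^ P.p) * c : ℤ) : Qb) := by
        have h6 : ((P.b ^ P.p : ℤ) : Qb) = ((32 * c : ℤ) : Qb) := by rw [hc]
        push_cast at h6 ⊢
        rw [h6]
        ring
      rw [this, map_mul]
      exact lt_of_le_of_lt (mul_le_of_le_one_right' (EC.val_intCast_le_one v _)) hv2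
    · rw [Valuation.map_sub_eq_of_lt_right v, map_pow, hva, one_pow]
      rw [map_pow, map_pow, hva, one_pow]
      exact pow_lt_one₀ zero_le hvb hp0
  have hv2 : v (2 : Qb) = 1 := by
    have : ¬ (q : ℤ) ∣ (2 : ℤ) := by
      intro h
      exact hq2 ((Nat.prime_dvd_prime_iff_eq hq Nat.prime_two).mp (by exact_mod_cast h))
    exact_mod_cast S05.val_int_eq_one hq hvq this
  have hv4 : v (4 : Qb) = 1 := by
    have : (4 : Qb) = 2 ^ 2 := by norm_num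
    rw [this, map_pow, hv2, one_pow]
  have hv16 : v (16 : Qb) = 1 := by
    have : (16 : Qb) = 2 ^ 4 := by norm_num
    rw [this, map_pow, hv2, one_pow]
  by_cases hqa : (q : ℤ) ∣ P.a
  · have hva1 : v (P.a : Qb) < 1 := S05.val_int_lt_one hvq hqa
    have hvb1 : v (P.b : Qb) = 1 := S05.val_int_eq_one hq hvq (fun h => cab ⟨hqa, h⟩)
    have hA1 : v ((P.a : Qb) ^ P.p) < 1 := by rw [map_pow]; exact pow_lt_one₀ zero_le hva1 hp0
    have hB1 : v ((P.b : Qb) ^ P.p) = 1 := by rw [map_pow, hvb1, one_pow]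
    refine hnode 0 0 (-((P.a : Qb) ^ P.p) * ((P.b : Qb) ^ P.p) / 16) ⟨0, 0, by simp, by simp⟩
      (frey_node_zero P v ?_ ?_)
    · rw [map_div₀, hv16, div_one, map_mul, Valuation.map_neg, hB1, mul_one]
      exact hA1
    · rw [Valuation.map_sub_eq_of_lt_left v, hB1]
      rw [hB1]; exact hA1
  by_cases hqb : (q : ℤ) ∣ P.b
  · have hvb1 : v (P.b : Qb) < 1 := S05.val_int_lt_one hvq hqb
    have hva1 : v (P.a : Qb) = 1 := S05.val_int_eq_one hq hvq hqa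
    have hB1 : v ((P.b : Qb) ^ P.p) < 1 := by rw [map_pow]; exact pow_lt_one₀ zero_le hvb1 hp0
    have hA1 : v ((P.a : Qb) ^ P.p) = 1 := by rw [map_pow, hva1, one_pow]
    refine hnode 0 0 (-((P.a : Qb) ^ P.p) * ((P.b : Qb) ^ P.p) / 16) ⟨0, 0, by simp, by simp⟩
      (frey_node_zero P v ?_ ?_)
    · rw [map_div₀, hv16, div_one, map_mul, Valuation.map_neg, hA1, one_mul]
      exact hB1
    · rw [Valuation.map_sub_eq_of_lt_right v, hA1]
      rw [hA1]; exact hB1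
  have hqc : (q : ℤ) ∣ P.c := by
    rcases hqZ.dvd_or_dvd hd with h | h
    · rcases hqZ.dvd_or_dvd h with h | h
      · exact absurd h hqa
      · exact absurd h hqb
    · exact h
  have hvc1 : v (P.c : Qb) < 1 := S05.val_int_lt_one hvq hqc
  have hva1 : v (P.a : Qb) = 1 := S05.val_int_eq_one hq hvq hqa
  have hC1 : v ((P.c : Qb) ^ P.p) < 1 := by rw [map_pow]; exact pow_lt_one₀ zero_le hvc1 hp0
  have hA1 : v ((P.a : Qb) ^ P.p) = 1 := by rw [map_pow, hva1, one_pow]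
  refine hnode ((P.a : Qb) ^ P.p / 4) (-((P.a : Qb) ^ P.p) / 8)
    (((P.a : Qb) ^ P.p) * ((P.c : Qb) ^ P.p) / 16)
    ⟨(P.a : ℚ) ^ P.p / 4, -((P.a : ℚ) ^ P.p) / 8, by simp, by simp⟩
    (frey_node_c P v hv4 ?_ ?_)
  · rw [map_div₀, hv16, div_one, map_mul, hA1, one_mul]
    exact hC1
  · rw [Valuation.map_add_eq_of_lt_left v, hA1]
    rw [hA1]; exact hC1

theorem frey_good {q : ℕ} (hq : q.Prime) {A : ValuationSubring Qb} (hA : A.LiesOverPrime q)
    (hd : ¬ (q : ℤ) ∣ P.a * P.b * P.c) : A.valuation (P.freyCurve⁄Qb).Δ = 1 := by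
  set v := A.valuation with hvdef
  have hvq : v (q : Qb) < 1 := A.mem_nonunits_iff.mp hA
  have hqa : ¬ (q : ℤ) ∣ P.a := fun h => hd (Dvd.dvd.mul_right (Dvd.dvd.mul_right h _) _)
  have hqb : ¬ (q : ℤ) ∣ P.b := fun h => hd (Dvd.dvd.mul_right (Dvd.dvd.mul_left h _) _)
  have hqc : ¬ (q : ℤ) ∣ P.c := fun h => hd (Dvd.dvd.mul_left h _)
  have hq2 : q ≠ 2 := by
    rintro rfl
    exact hqb (by exact_mod_cast frey_two_dvd_b P)
  have hv2 : v (2 : Qb) = 1 := by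
    have : ¬ (q : ℤ) ∣ (2 : ℤ) := by
      intro h
      exact hq2 ((Nat.prime_dvd_prime_iff_eq hq Nat.prime_two).mp (by exact_mod_cast h))
    exact_mod_cast S05.val_int_eq_one hq hvq this
  have hva1 : v (P.a : Qb) = 1 := S05.val_int_eq_one hq hvq hqa
  have hvb1 : v (P.b : Qb) = 1 := S05.val_int_eq_one hq hvq hqb
  have hvc1 : v (P.c : Qb) = 1 := S05.val_int_eq_one hq hvq hqc
  have h256 : v (256 : Qb) = 1 := by
    have : (256 : Qb) = 2 ^ 8 := by norm_num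
    rw [this, map_pow, hv2, one_pow]
  rw [frey_Δ, map_div₀, h256, div_one]
  simp only [map_mul, map_pow, hva1, hvb1, hvc1, one_pow, one_mul]

/-- good reduction: inertia acts trivially modulo `E₁` -/
theorem good_smul_sub {A : ValuationSubring Qb} (hΔ : A.valuation (P.freyCurve⁄Qb).Δ = 1)
    {σ : GQ} (hσ : σ ∈ A.inertiaSubgroupIn ℚ) (Q : (P.freyCurve⁄Qb).Point) :
    σ • Q - Q ∈ E1 A.valuation (frey_isInt P A.valuation) := by
  have hTM : TrivMod A.valuation σ := EC.trivMod_of_mem_inertia A hσ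
  refine EC.smul_sub_inE1 (frey_isInt P A.valuation) hTM Q (fun h => ?_)
  rcases Q with _ | ⟨x, y, h'⟩
  · simp [← zero_def] at h
  · exact (frey_isInt P A.valuation).ns_of_Δ hΔ (by simpa using h)

/-- a unit value of `Ψ₃` at an integral zero of `Ψ₂Sq` above `p` -/
theorem frey_exists_e {A : ValuationSubring Qb} (hA : A.LiesOverPrime P.p) :
    ∃ e : Qb, A.valuation e ≤ 1 ∧ (P.freyCurve⁄Qb).Ψ₂Sq.eval e = 0 ∧
      A.valuation ((P.freyCurve⁄Qb).Ψ₃.eval e) = 1 := by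
  set v := A.valuation with hvdef
  have hq : (P.p).Prime := P.pp
  have hp5 := P.hp5
  have hvq : v ((P.p : ℕ) : Qb) < 1 := A.mem_nonunits_iff.mp hA
  have hqZ : Prime ((P.p : ℕ) : ℤ) := Int.prime_iff_natAbs_prime.mpr (by simpa using hq)
  have hpK : ((P.p : ℕ) : Qb) ≠ 0 := by exact_mod_cast P.hp0
  have cab : ¬ (((P.p : ℕ) : ℤ) ∣ P.a ∧ ((P.p : ℕ) : ℤ) ∣ P.b) := by
    rintro ⟨h1, h2⟩
    have h3 := dvd_gcd h1 h2
    rw [P.hgcdab] at h3
    exact hqZ.not_isUnit (isUnit_of_dvd_one h3)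
  have cac : ¬ (((P.p : ℕ) : ℤ) ∣ P.a ∧ ((P.p : ℕ) : ℤ) ∣ P.c) := by
    rintro ⟨h1, h2⟩
    have h3 := dvd_gcd h1 h2
    rw [P.hgcdac] at h3
    exact hqZ.not_isUnit (isUnit_of_dvd_one h3)
  have cbc : ¬ (((P.p : ℕ) : ℤ) ∣ P.b ∧ ((P.p : ℕ) : ℤ) ∣ P.c) := by
    rintro ⟨h1, h2⟩
    have h3 := dvd_gcd h1 h2
    rw [P.hgcdbc] at h3
    exact hqZ.not_isUnit (isUnit_of_dvd_one h3)
  have hv2 : v (2 : Qb) = 1 := by
    have : ¬ ((P.p : ℕ) : ℤ) ∣ (2 : ℤ) := by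
      intro h
      have h2 := (Nat.prime_dvd_prime_iff_eq hq Nat.prime_two).mp (by exact_mod_cast h)
      omega
    exact_mod_cast S05.val_int_eq_one hq hvq this
  have hv4 : v (4 : Qb) = 1 := by
    have : (4 : Qb) = 2 ^ 2 := by norm_num
    rw [this, map_pow, hv2, one_pow]
  have hv16 : v (16 : Qb) = 1 := by
    have : (16 : Qb) = 2 ^ 4 := by norm_num
    rw [this, map_pow, hv2, one_pow]
  have hpsi2 : ∀ e : Qb, (P.freyCurve⁄Qb).Ψ₂Sq.eval e =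
      4 * e * (e - (P.a : Qb) ^ P.p / 4) * (e + (P.b : Qb) ^ P.p / 4) := by
    intro e
    rw [WeierstrassCurve.Ψ₂Sq, frey_b₂, frey_b₄, frey_b₆]
    simp only [Polynomial.eval_add, Polynomial.eval_mul, Polynomial.eval_pow, Polynomial.eval_C,
      Polynomial.eval_X, Polynomial.eval_ofNat]
    ring
  have hpsi3 : ∀ e : Qb, (P.freyCurve⁄Qb).Ψ₃.eval e =
      3 * e ^ 4 + ((P.b : Qb) ^ P.p - (P.a : Qb) ^ P.p) * e ^ 3 +
      3 * (-((P.a : Qb) ^ P.p) * ((P.b : Qb) ^ P.p) / 8) * e ^ 2 +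
      -(-((P.a : Qb) ^ P.p) * ((P.b : Qb) ^ P.p) / 16) ^ 2 := by
    intro e
    rw [WeierstrassCurve.Ψ₃, frey_b₂, frey_b₄, frey_b₆, frey_b₈]
    simp only [Polynomial.eval_add, Polynomial.eval_mul, Polynomial.eval_pow, Polynomial.eval_C,
      Polynomial.eval_X, Polynomial.eval_ofNat]
    ring
  by_cases hqa : ((P.p : ℕ) : ℤ) ∣ P.a
  · have hvb1 : v (P.b : Qb) = 1 := S05.val_int_eq_one hq hvq (fun h => cab ⟨hqa, h⟩)
    have hvc1 : v (P.c : Qb) = 1 := S05.val_int_eq_one hq hvq (fun h => cac ⟨hqa, h⟩)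
    refine ⟨-((P.b : Qb) ^ P.p) / 4, ?_, ?_, ?_⟩
    · rw [map_div₀, hv4, div_one, Valuation.map_neg, map_pow, hvb1, one_pow]
    · rw [hpsi2]; ring
    · rw [hpsi3]
      have : 3 * (-((P.b : Qb) ^ P.p) / 4) ^ 4 +
          ((P.b : Qb) ^ P.p - (P.a : Qb) ^ P.p) * (-((P.b : Qb) ^ P.p) / 4) ^ 3 +
          3 * (-((P.a : Qb) ^ P.p) * ((P.b : Qb) ^ P.p) / 8) * (-((P.b : Qb) ^ P.p) / 4) ^ 2 +
          -(-((P.a : Qb) ^ P.p) * ((P.b : Qb) ^ P.p) / 16) ^ 2 =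
          -(((P.b : Qb) ^ P.p) * ((P.c : Qb) ^ P.p) / 16) ^ 2 := by
        rw [← frey_flt]; ring
      rw [this, Valuation.map_neg, map_pow, map_div₀, hv16, div_one, map_mul, map_pow, map_pow,
        hvb1, hvc1]
      simp
  by_cases hqb : ((P.p : ℕ) : ℤ) ∣ P.b
  · have hva1 : v (P.a : Qb) = 1 := S05.val_int_eq_one hq hvq hqa
    have hvc1 : v (P.c : Qb) = 1 := S05.val_int_eq_one hq hvq (fun h => cbc ⟨hqb, h⟩)
    refine ⟨((P.a : Qb) ^ P.p) / 4, ?_, ?_, ?_⟩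
    · rw [map_div₀, hv4, div_one, map_pow, hva1, one_pow]
    · rw [hpsi2]; ring
    · rw [hpsi3]
      have : 3 * (((P.a : Qb) ^ P.p) / 4) ^ 4 +
          ((P.b : Qb) ^ P.p - (P.a : Qb) ^ P.p) * (((P.a : Qb) ^ P.p) / 4) ^ 3 +
          3 * (-((P.a : Qb) ^ P.p) * ((P.b : Qb) ^ P.p) / 8) * (((P.a : Qb) ^ P.p) / 4) ^ 2 +
          -(-((P.a : Qb) ^ P.p) * ((P.b : Qb) ^ P.p) / 16) ^ 2 =
          -(((P.a : Qb) ^ P.p) * ((P.c : Qb) ^ P.p) / 16) ^ 2 := by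
        rw [← frey_flt]; ring
      rw [this, Valuation.map_neg, map_pow, map_div₀, hv16, div_one, map_mul, map_pow, map_pow,
        hva1, hvc1]
      simp
  · have hva1 : v (P.a : Qb) = 1 := S05.val_int_eq_one hq hvq hqa
    have hvb1 : v (P.b : Qb) = 1 := S05.val_int_eq_one hq hvq hqb
    refine ⟨0, ?_, ?_, ?_⟩
    · simp
    · rw [hpsi2]; ring
    · rw [hpsi3]
      have : 3 * (0 : Qb) ^ 4 +
          ((P.b : Qb) ^ P.p - (P.a : Qb) ^ P.p) * (0 : Qb) ^ 3 +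
          3 * (-((P.a : Qb) ^ P.p) * ((P.b : Qb) ^ P.p) / 8) * (0 : Qb) ^ 2 +
          -(-((P.a : Qb) ^ P.p) * ((P.b : Qb) ^ P.p) / 16) ^ 2 =
          -(((P.a : Qb) ^ P.p) * ((P.b : Qb) ^ P.p) / 16) ^ 2 := by
        ring
      rw [this, Valuation.map_neg, map_pow, map_div₀, hv16, div_one, map_mul, map_pow, map_pow,
        hva1, hvb1]
      simp

end Fermat.Agent.Iter
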