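import Fermat.Agent.Iter.FreyCases
import Fermat.Agent.Iter.Char
import Fermat.Agent.ECP.StableLine
import Fermat.Agent.EC.FreyNoTorsion
import Fermat.Agent.S05
import Fermat.Agent.Final.Frey

set_option autoImplicit false

/-!
# The line `N ⊂ E[p]` with trivial quotient
-/

namespace Fermat.Agent.Iter

open WeierstrassCurve WeierstrassCurve.Affine WeierstrassCurve.Affine.Point
open Fermat.Agent.EC (IsInt InE1 xX xZ TrivMod NS comp nrm IsKummer)
open Fermat.Agent.ECP Fermat.Agent.MazX ExtCitation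

local notation "Qb" => AlgebraicClosure ℚ
local notation "GQ" => AlgebraicClosure ℚ ≃ₐ[ℚ] AlgebraicClosure ℚ

variable (P : FreyPackage)

lemma tors_finite : Finite (Submodule.torsionBy ℤ (P.freyCurve⁄Qb).Point P.p) ∧
    Nat.card (Submodule.torsionBy ℤ (P.freyCurve⁄Qb).Point P.p) ≤ P.p ^ 2 := by
  have hp5 := P.hp5
  have hpF : ((P.p : ℕ) : AlgebraicClosure ℚ) ≠ 0 := by exact_mod_cast P.hp0
  obtain ⟨hfin, hcard⟩ := Fermat.Agent.ECP.torsion_card_le (W := P.freyCurve⁄(AlgebraicClosure ℚ))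
    P.pp (by omega) hpF
  have hset : {Q : (P.freyCurve⁄(AlgebraicClosure ℚ)).Point | P.p • Q = 0} =
      (Submodule.torsionBy ℤ (P.freyCurve⁄(AlgebraicClosure ℚ)).Point P.p :
        Set (P.freyCurve⁄(AlgebraicClosure ℚ)).Point) := by
    ext Q
    rw [SetLike.mem_coe, Submodule.mem_torsionBy_iff]
    change P.p • Q = 0 ↔ _
    rw [natCast_zsmul]
  rw [hset] at hfin hcard
  exact ⟨hfin.to_subtype, hcard⟩

/-- the denominator of the line constant -/
theorem frey_den [hfact : Fact P.p.Prime]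
    [Finite (Submodule.torsionBy ℤ (P.freyCurve⁄Qb).Point P.p)]
    (hcard : Nat.card (Submodule.torsionBy ℤ (P.freyCurve⁄Qb).Point P.p) ≤ P.p ^ 2)
    {N : Submodule (ZMod P.p) (Submodule.torsionBy ℤ (P.freyCurve⁄Qb).Point P.p)}
    (hbot : N ≠ ⊥) (htop : N ≠ ⊤) (hN : IsGaloisStable ℚ N) {r : ℚ}
    (hr : algebraMap ℚ Qb r = lineC N) : P.p ∣ r.den := by
  by_contra hd
  have hp5 := P.hp5
  have hunr : ∀ q : ℕ, q.Prime → q ≠ 2 → q ≠ P.p → P.GaloisRepUnramifiedAt q :=
    fun q hq hq2 hqp => Fermat.Agent.S05.result P hq hq2 hqp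
  have h2 : ∀ A : ValuationSubring Qb, A.LiesOverPrime 2 → ∀ σ ∈ A.inertiaSubgroupIn ℚ,
      (∀ x ∈ N, σ • x = x) ∧ (∀ x, σ • x - x ∈ N) := by
    intro A hA σ hσ
    obtain ⟨E0, h1, h⟩ := frey_local P Nat.prime_two hA
    obtain ⟨h2, h3⟩ := h σ hσ
    refine trivial_on_both hcard hbot htop hN σ E0 _ h2 h3 ?_
    intro x hx
    have hvp : A.valuation ((P.p : ℕ) : Qb) = 1 := by
      refine val_nat_eq_one_of_not_dvd (v := A.valuation) Nat.prime_two
        (A.mem_nonunits_iff.mp hA) ?_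
      intro hd
      have := (Nat.prime_dvd_prime_iff_eq Nat.prime_two P.pp).mp hd
      omega
    have := (frey_isInt P A.valuation).eq_zero_of_inE1 ((mem_E1_iff _).mp hx) hvp
      (nsmul_coe_eq_zero x)
    exact Subtype.ext this
  have htopH : H1 (S := ℚ) N = ⊤ := by
    refine eq_top_of_inertia_le_tors _ (H1_normal hN) (torsField_le_H1 N) ?_
    intro ℓ hℓ A hA σ hσ
    rw [mem_H1_iff]
    by_cases hℓ2 : ℓ = 2
    · subst hℓ2
      exact (h2 A hA σ hσ).1
    by_cases hℓp : ℓ = P.p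
    · subst hℓp
      have hvp : A.valuation ((P.p : ℕ) : Qb) < 1 := A.mem_nonunits_iff.mp hA
      obtain ⟨E0, h1, h⟩ := frey_local P hℓ hA
      obtain ⟨h2, h3⟩ := h σ hσ
      refine trivial_on_line hcard hbot htop hN σ E0 _ h2 h3 ?_
      refine eq_zero_of_mem_E1 _ hcard hbot htop ?_
      rw [← hr, val_rat_le_one_iff P.pp hvp r]
      exact hd
    · intro x _
      exact hunr ℓ hℓ hℓ2 hℓp A hA σ hσ x
  apply hbot
  rw [Submodule.eq_bot_iff]
  intro x hx
  have hfix : ∀ σ : Qb ≃ₐ[ℚ] Qb, σ • x = x := by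
    intro σ
    have : σ ∈ H1 (S := ℚ) N := by rw [htopH]; exact Subgroup.mem_top _
    exact this x hx
  have h2 := Fermat.Agent.EC.frey_no_rational_torsion P x
    (Fermat.Agent.ECP.nsmul_coe_eq_zero x) (fun σ => congrArg Subtype.val (hfix σ))
  exact Subtype.ext h2

/-- **The line.** -/
theorem frey_line [hfact : Fact P.p.Prime]
    (h : HasGaloisStableCofixedLine (K := Qb) ℚ P.freyCurve P.p) :
    ∃ a : (P.freyCurve⁄Qb).Point, a ≠ 0 ∧ P.p • a = 0 ∧
      (∀ x, P.p • x = 0 → ∀ σ : GQ, ∃ k : ℕ, σ • x - x = k • a) ∧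
      (∀ σ : GQ, σ • a = cycloExp P.p σ • a) ∧
      (∀ A : ValuationSubring Qb, A.LiesOverPrime P.p → ∀ x, P.p • x = 0 →
        (x ∈ E1 A.valuation (frey_isInt P A.valuation) ↔ ∃ k : ℕ, x = k • a)) := by
  have hp5 := P.hp5
  obtain ⟨hfin, hcard⟩ := tors_finite P
  obtain ⟨N, hN, hbot, htop, htriv⟩ := h
  obtain ⟨x₁, hx₁N, hx₁0⟩ := N.ne_bot_iff.mp hbot
  have hgen : ∀ x ∈ N, ∃ k : ℕ, x = k • x₁ := fun x hx =>
    exists_nsmul_eq hcard hbot htop hx₁N hx₁0 hx
  have hspan : N = Submodule.span (ZMod P.p) {x₁} := by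
    apply le_antisymm
    · intro x hx
      obtain ⟨k, rfl⟩ := hgen x hx
      exact nsmul_mem (Submodule.mem_span_singleton_self x₁) k
    · rw [Submodule.span_singleton_le_iff_mem]; exact hx₁N
  have hmem : ∀ {x : (P.freyCurve⁄Qb).Point}, P.p • x = 0 →
      x ∈ Submodule.torsionBy ℤ (P.freyCurve⁄Qb).Point P.p := by
    intro x hx
    rw [Submodule.mem_torsionBy_iff, natCast_zsmul]
    exact hx
  have hcomm : SMulCommClass GQ (ZMod P.p) (Submodule.torsionBy ℤ (P.freyCurve⁄Qb).Point P.p) :=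
    ⟨fun σ a v => (ZMod.map_smul (DistribSMul.toAddMonoidHom _ σ) a v)⟩
  have hchar := line_char_dichotomy (p := P.p) hspan hx₁0 htop hN htriv
    (quad_torsion P.freyCurve P.p (Fermat.Agent.Final.isIntegralModelOf P))
  refine ⟨x₁, fun h0 => hx₁0 (Subtype.ext h0), nsmul_coe_eq_zero x₁, ?_, ?_, ?_⟩
  · intro x hx σ
    obtain ⟨k, hk⟩ := hgen _ (htriv σ ⟨x, hmem hx⟩)
    exact ⟨k, congrArg Subtype.val hk⟩
  · have hchar' : ∀ σ : GQ, σ • x₁ = (cycloChar P.p σ : ZMod P.p) • x₁ := by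
      rcases hchar with hc | hc
      · exfalso
        apply hx₁0
        have h2 := Fermat.Agent.EC.frey_no_rational_torsion P x₁
          (Fermat.Agent.ECP.nsmul_coe_eq_zero x₁) (fun σ => congrArg Subtype.val (hc σ))
        exact Subtype.ext h2
      · exact hc
    intro σ
    have h1 := hchar' σ
    rw [coe_cycloChar, Nat.cast_smul_eq_nsmul] at h1
    exact congrArg Subtype.val h1
  · intro A hA x hx
    obtain ⟨r, hr⟩ := lineC_rational hN
    have hd := frey_den P hcard hbot htop hN hr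
    have hvp : A.valuation ((P.p : ℕ) : Qb) < 1 := A.mem_nonunits_iff.mp hA
    have h1 := mem_E1_iff_mem_line (by omega) hvp (frey_isInt P A.valuation) hcard hbot htop hN (by
      rw [← hr, ← not_le, val_rat_le_one_iff P.pp hvp r]
      exact fun h => h hd) ⟨x, hmem hx⟩
    rw [show (x ∈ E1 A.valuation (frey_isInt P A.valuation) ↔ _) from h1]
    constructor
    · intro hxN
      obtain ⟨k, hk⟩ := hgen _ hxN
      exact ⟨k, congrArg Subtype.val hk⟩
    · rintro ⟨k, hk⟩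
      have : (⟨x, hmem hx⟩ : Submodule.torsionBy ℤ (P.freyCurve⁄Qb).Point P.p) = k • x₁ :=
        Subtype.ext hk
      rw [this]
      exact nsmul_mem hx₁N k

end Fermat.Agent.Iter
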