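import Fermat.Agent.Iter.FreyLine
import Fermat.Agent.Iter.Div

set_option autoImplicit false

/-!
# Local facts used in the iteration
-/

namespace Fermat.Agent.Iter

open WeierstrassCurve WeierstrassCurve.Affine WeierstrassCurve.Affine.Point
open Fermat.Agent.EC (IsInt InE1 xX xZ TrivMod NS comp nrm IsKummer)
open Fermat.Agent.ECP Fermat.Agent.MazX ExtCitation

local notation "Qb" => AlgebraicClosure ℚ
local notation "GQ" => AlgebraicClosure ℚ ≃ₐ[ℚ] AlgebraicClosure ℚ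

section Abs

variable {M : Type*} [AddCommGroup M] {p : ℕ}

/-- `F[p ^ n]` is generated by `e` if `F[p]` is generated by `p ^ (n - 1) e` -/
lemma mem_zmultiples_of_pow (F : AddSubgroup M) {e a : M} {n : ℕ} (heF : e ∈ F)
    (hea : p ^ n • e = a) (ha : ∀ x ∈ F, p • x = 0 → x ∈ AddSubgroup.zmultiples a) {y : M}
    (hy : y ∈ F) (hpy : p ^ (n + 1) • y = 0) : y ∈ AddSubgroup.zmultiples e := by
  have key : ∀ k ≤ n + 1, ∀ y ∈ F, p ^ k • y = 0 →
      ∃ j : ℤ, y = j • (p ^ (n + 1 - k) • e) := by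
    intro k
    induction k with
    | zero =>
      intro _ y _ h
      refine ⟨0, ?_⟩
      rw [pow_zero, one_smul] at h
      rw [h, zero_smul]
    | succ k ih =>
      intro hk y hy h
      obtain ⟨j, hj⟩ := ih (by omega) (p • y) (F.nsmul_mem hy p) (by
        rw [smul_smul, ← pow_succ]; exact h)
      have h1 : p • (y - j • (p ^ (n + 1 - (k + 1)) • e)) = 0 := by
        have e1 : p ^ (n + 1 - k) • e = p • (p ^ (n + 1 - (k + 1)) • e) := by
          rw [smul_smul, ← pow_succ']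
          congr 2; omega
        rw [smul_sub, hj, e1, smul_comm p j, sub_self]
      obtain ⟨i, hi⟩ := AddSubgroup.mem_zmultiples_iff.mp
        (ha _ (F.sub_mem hy (F.zsmul_mem (F.nsmul_mem heF _) j)) h1)
      refine ⟨j + i * (p ^ k : ℕ), ?_⟩
      have e2 : (p ^ k : ℕ) • (p ^ (n + 1 - (k + 1)) • e) = a := by
        rw [smul_smul, ← pow_add, ← hea]
        congr 2; omega
      rw [add_smul, mul_smul, natCast_zsmul, e2, hi]
      abel
  obtain ⟨j, hj⟩ := key (n + 1) le_rfl y hy hpy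
  rw [Nat.sub_self, pow_zero, one_smul] at hj
  exact AddSubgroup.mem_zmultiples_iff.mpr ⟨j, hj.symm⟩

lemma mem_of_coprime (F : AddSubgroup M) {e : M} {m k : ℤ} (h : IsCoprime m k)
    (hm : m • e ∈ F) (hk : k • e ∈ F) : e ∈ F := by
  obtain ⟨a, b, hab⟩ := h
  have e1 : e = a • (m • e) + b • (k • e) := by
    rw [smul_smul, smul_smul, ← add_smul, hab, one_smul]
  rw [e1]
  exact F.add_mem (F.zsmul_mem hm a) (F.zsmul_mem hk b)

end Abs

variable (P : FreyPackage)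

/-- the line and its properties -/
structure LineData [hfact : Fact P.p.Prime] (a : (P.freyCurve⁄Qb).Point) : Prop where
  a0 : a ≠ 0
  pa : P.p • a = 0
  triv : ∀ x, P.p • x = 0 → ∀ σ : GQ, ∃ k : ℕ, σ • x - x = k • a
  char : ∀ σ : GQ, σ • a = cycloExp P.p σ • a
  memE1 : ∀ A : ValuationSubring Qb, A.LiesOverPrime P.p → ∀ x, P.p • x = 0 →
        (x ∈ E1 A.valuation (frey_isInt P A.valuation) ↔ ∃ k : ℕ, x = k • a)

lemma exists_lineData [hfact : Fact P.p.Prime]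
    (h : HasGaloisStableCofixedLine (K := Qb) ℚ P.freyCurve P.p) : ∃ a, LineData P a := by
  obtain ⟨a, h1, h2, h3, h4, h5⟩ := frey_line P h
  exact ⟨a, h1, h2, h3, h4, h5⟩

variable {P}

section Away

variable {ℓ : ℕ} {A : ValuationSubring Qb}

lemma val_p_eq_one (hℓ : ℓ.Prime) (hA : A.LiesOverPrime ℓ) (hℓp : ℓ ≠ P.p) :
    A.valuation ((P.p : ℕ) : Qb) = 1 := by
  refine val_nat_eq_one_of_not_dvd (v := A.valuation) hℓ (A.mem_nonunits_iff.mp hA) ?_
  intro hd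
  exact hℓp ((Nat.prime_dvd_prime_iff_eq hℓ P.pp).mp hd)

lemma eq_zero_of_E1_torsion (hℓ : ℓ.Prime) (hA : A.LiesOverPrime ℓ) (hℓp : ℓ ≠ P.p)
    {x : (P.freyCurve⁄Qb).Point} {m : ℕ} (hx : P.p ^ m • x = 0)
    (hx1 : x ∈ E1 A.valuation (frey_isInt P A.valuation)) : x = 0 := by
  refine (frey_isInt P A.valuation).eq_zero_of_inE1 ((mem_E1_iff _).mp hx1) (n := P.p ^ m) ?_ hx
  push_cast
  rw [map_pow, val_p_eq_one hℓ hA hℓp, one_pow]

lemma nsmul_smul' (m : ℕ) (σ : GQ) (x : (P.freyCurve⁄Qb).Point) : m • (σ • x) = σ • (m • x) := by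
  exact (map_nsmul (DistribSMul.toAddMonoidHom _ σ) m x).symm

lemma zsmul_smul' (m : ℤ) (σ : GQ) (x : (P.freyCurve⁄Qb).Point) : m • (σ • x) = σ • (m • x) := by
  exact (map_zsmul (DistribSMul.toAddMonoidHom _ σ) m x).symm

lemma smul_sub_torsion {σ : GQ} {x : (P.freyCurve⁄Qb).Point} {m : ℕ} (hx : m • x = 0) :
    m • (σ • x - x) = 0 := by
  rw [nsmul_sub, nsmul_smul', hx, sub_zero]
  rfl

lemma fixed_of_good (hℓ : ℓ.Prime) (hA : A.LiesOverPrime ℓ) (hℓp : ℓ ≠ P.p)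
    (hd : ¬ (ℓ : ℤ) ∣ P.a * P.b * P.c) {σ : GQ} (hσ : σ ∈ A.inertiaSubgroupIn ℚ)
    {x : (P.freyCurve⁄Qb).Point} {m : ℕ} (hx : P.p ^ m • x = 0) : σ • x = x := by
  rw [← sub_eq_zero]
  exact eq_zero_of_E1_torsion hℓ hA hℓp (smul_sub_torsion hx)
    (good_smul_sub P (frey_good P hℓ hA hd) hσ x)

lemma smul_sub_mem_E0 {T : (P.freyCurve⁄Qb).Point} {t β : Qb} (h : RatNode P A T t β)
    {σ : GQ} (hσ : σ ∈ A.inertiaSubgroupIn ℚ) {x : (P.freyCurve⁄Qb).Point} {m : ℕ}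
    (hx : P.p ^ m • x = 0) : σ • x - x ∈ h.node.E0 :=
  h.node.smul_sub_mem_E0_of_torsion (EC.trivMod_of_mem_inertia A hσ)
    (fun y => valuation_smul_eq A hσ y) (h.xT σ) (h.tt σ) (P.hp_odd.pow) hx

lemma fixed_of_mem_E0 (hℓ : ℓ.Prime) (hA : A.LiesOverPrime ℓ) (hℓp : ℓ ≠ P.p)
    {T : (P.freyCurve⁄Qb).Point} {t β : Qb} (h : RatNode P A T t β)
    {σ : GQ} (hσ : σ ∈ A.inertiaSubgroupIn ℚ) {x : (P.freyCurve⁄Qb).Point} {m : ℕ}
    (hx : P.p ^ m • x = 0) (hx0 : x ∈ h.node.E0) : σ • x = x := by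
  rw [← sub_eq_zero]
  exact eq_zero_of_E1_torsion hℓ hA hℓp (smul_sub_torsion hx)
    (h.node.smul_sub_mem_E1 (EC.trivMod_of_mem_inertia A hσ) hx0)

variable [hfact : Fact P.p.Prime] {a : (P.freyCurve⁄Qb).Point}

lemma E0_torsion (D : LineData P a) (hℓ : ℓ.Prime) (hA : A.LiesOverPrime ℓ) (hℓp : ℓ ≠ P.p)
    {T : (P.freyCurve⁄Qb).Point} {t β : Qb} (h : RatNode P A T t β) (ha : a ∈ h.node.E0)
    {x : (P.freyCurve⁄Qb).Point} (hx : P.p • x = 0) (hx0 : x ∈ h.node.E0) :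
    x ∈ AddSubgroup.zmultiples a := by
  have hp5 := P.hp5
  obtain ⟨j, rfl⟩ := exists_nsmul_of_mem_E0 h.node (redMap_resMap A) P.pp (by omega)
    (val_p_eq_one hℓ hA hℓp) D.a0 D.pa ha hx hx0
  exact AddSubgroup.nsmul_mem _ (AddSubgroup.mem_zmultiples a) j

end Away

/-- being in `E₀` at all bad primes different from `p` -/
def OnE0 (P : FreyPackage) (e : (P.freyCurve⁄Qb).Point) : Prop :=
  ∀ ℓ : ℕ, ℓ.Prime → ℓ ≠ P.p → ∀ A : ValuationSubring Qb, A.LiesOverPrime ℓ →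
    ∀ (T : (P.freyCurve⁄Qb).Point) (t β : Qb) (h : RatNode P A T t β), e ∈ h.node.E0

section Main

variable [hfact : Fact P.p.Prime] {a e : (P.freyCurve⁄Qb).Point} {n : ℕ}

/-- unramifiedness of `p⁻¹ C / C` -/
theorem unr_step (D : LineData P a) (he : OnE0 P e) (hea : P.p ^ n • e = a) {ℓ : ℕ} (hℓ : ℓ.Prime)
    (hℓp : ℓ ≠ P.p) {A : ValuationSubring Qb} (hA : A.LiesOverPrime ℓ) {σ : GQ}
    (hσ : σ ∈ A.inertiaSubgroupIn ℚ) {z : (P.freyCurve⁄Qb).Point}
    (hz : P.p • z ∈ AddSubgroup.zmultiples e) : σ • z - z ∈ AddSubgroup.zmultiples e := by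
  have hpe : P.p ^ (n + 1) • e = 0 := by rw [pow_succ', mul_smul, hea, D.pa]
  obtain ⟨k, hk⟩ := AddSubgroup.mem_zmultiples_iff.mp hz
  have hpz : P.p ^ (n + 1) • (P.p • z) = 0 := by
    rw [← hk, smul_comm, hpe, zsmul_zero]
  have hpz2 : P.p ^ (n + 2) • z = 0 := by
    rw [pow_succ, mul_smul]; exact hpz
  by_cases hd : (ℓ : ℤ) ∣ P.a * P.b * P.c
  · obtain ⟨T, t, β, h⟩ := frey_node P hℓ hA hd
    have he0 := he ℓ hℓ hℓp A hA T t β h
    have ha0 : a ∈ h.node.E0 := by rw [← hea]; exact AddSubgroup.nsmul_mem _ he0 _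
    have h1 : σ • z - z ∈ h.node.E0 := smul_sub_mem_E0 h hσ hpz2
    have h2 : P.p • (σ • z - z) = 0 := by
      rw [nsmul_sub, nsmul_smul', fixed_of_mem_E0 hℓ hA hℓp h hσ hpz (by
        rw [← hk]; exact AddSubgroup.zsmul_mem _ he0 k), sub_self]
    obtain ⟨j, hj⟩ := AddSubgroup.mem_zmultiples_iff.mp (E0_torsion D hℓ hA hℓp h ha0 h2 h1)
    rw [← hj, ← hea]
    exact AddSubgroup.zsmul_mem _ (AddSubgroup.nsmul_mem _ (AddSubgroup.mem_zmultiples e) _) j
  · rw [fixed_of_good hℓ hA hℓp hd hσ hpz2, sub_self]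
    exact AddSubgroup.zero_mem _

/-- inertia away from `p` acts trivially on `E[p ^ (n + 1)] / C` -/
theorem triv_away (D : LineData P a) (he : OnE0 P e) (hea : P.p ^ n • e = a) {ℓ : ℕ} (hℓ : ℓ.Prime)
    (hℓp : ℓ ≠ P.p) {A : ValuationSubring Qb} (hA : A.LiesOverPrime ℓ) {σ : GQ}
    (hσ : σ ∈ A.inertiaSubgroupIn ℚ) {x : (P.freyCurve⁄Qb).Point}
    (hx : P.p ^ (n + 1) • x = 0) : σ • x - x ∈ AddSubgroup.zmultiples e := by
  by_cases hd : (ℓ : ℤ) ∣ P.a * P.b * P.c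
  · obtain ⟨T, t, β, h⟩ := frey_node P hℓ hA hd
    have he0 := he ℓ hℓ hℓp A hA T t β h
    have ha0 : a ∈ h.node.E0 := by rw [← hea]; exact AddSubgroup.nsmul_mem _ he0 _
    exact mem_zmultiples_of_pow h.node.E0 he0 hea (fun x hx0 hx => E0_torsion D hℓ hA hℓp h ha0 hx hx0)
      (smul_sub_mem_E0 h hσ hx) (smul_sub_torsion hx)
  · rw [fixed_of_good hℓ hA hℓp hd hσ hx, sub_self]
    exact AddSubgroup.zero_mem _

omit hfact in
/-- decomposition groups preserve `E₁` -/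
lemma smul_mem_E1 {A : ValuationSubring Qb} {σ : GQ} (hσ : σ ∈ A.decompositionSubgroup ℚ)
    {x : (P.freyCurve⁄Qb).Point} (hx : x ∈ E1 A.valuation (frey_isInt P A.valuation)) :
    σ • x ∈ E1 A.valuation (frey_isInt P A.valuation) := by
  rw [mem_E1_iff] at hx ⊢
  change A.valuation (xZ x) < A.valuation (xX x) at hx
  change A.valuation (xZ (σ • x)) < A.valuation (xX (σ • x))
  obtain ⟨h1, h2⟩ := xX_smul (S := ℚ) (W' := P.freyCurve) σ x
  rw [h1, h2, valuation_smul_decomp A hσ, valuation_smul_decomp A hσ]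
  exact hx

section AtP

variable {A : ValuationSubring Qb} (hA : A.LiesOverPrime P.p)

include hA

omit hfact in
lemma val_p_lt : A.valuation ((P.p : ℕ) : Qb) < 1 := A.mem_nonunits_iff.mp hA

omit hfact in
lemma val_four : A.valuation (4 : Qb) = 1 := by
  have hp5 := P.hp5
  have hv2 : A.valuation (2 : Qb) = 1 := by
    have : ¬ ((P.p : ℕ) : ℤ) ∣ (2 : ℤ) := by
      intro h
      have h2 := (Nat.prime_dvd_prime_iff_eq P.pp Nat.prime_two).mp (by exact_mod_cast h)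
      omega
    exact_mod_cast S05.val_int_eq_one P.pp (val_p_lt hA) this
  have : (4 : Qb) = 2 ^ 2 := by norm_num
  rw [this, map_pow, hv2, one_pow]

lemma a_mem_E1 (D : LineData P a) : a ∈ E1 A.valuation (frey_isInt P A.valuation) :=
  (D.memE1 A hA a D.pa).mpr ⟨1, (one_smul _ a).symm⟩

/-- the `p`-torsion of `E₀` at `p` -/
lemma E0_torsion_p (D : LineData P a) {T : (P.freyCurve⁄Qb).Point} {t β : Qb}
    (h : RatNode P A T t β) {x : (P.freyCurve⁄Qb).Point} (hx : P.p • x = 0)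
    (hx0 : x ∈ h.node.E0) : x ∈ AddSubgroup.zmultiples a := by
  have hp5 := P.hp5
  have hpK : ((P.p : ℕ) : Qb) ≠ 0 := by exact_mod_cast P.hp0
  have ha0 : a ∈ h.node.E0 := h.node.E1_le_E0 (a_mem_E1 hA D)
  obtain ⟨hfin, -⟩ := torsion_card_le (W := (P.freyCurve⁄Qb)) P.pp (by omega) hpK
  have hcard : P.p ^ 2 ≤ {Q : (P.freyCurve⁄Qb).Point | P.p • Q = 0}.ncard := by
    have := ELoc.frey_card P (Nat.pos_of_ne_zero P.hp0)
    exact this.ge
  obtain ⟨y, hy, hyE⟩ := ELoc.exists_not_mem_E0 h.node (val_four hA) P.pp (by omega) hpK hfin hcard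
  obtain ⟨hfin', hcard'⟩ := tors_finite P
  by_contra hxa
  have hmem : ∀ {x : (P.freyCurve⁄Qb).Point}, P.p • x = 0 →
      x ∈ Submodule.torsionBy ℤ (P.freyCurve⁄Qb).Point P.p := by
    intro x hx
    rw [Submodule.mem_torsionBy_iff, natCast_zsmul]
    exact hx
  set T' := Submodule.torsionBy ℤ (P.freyCurve⁄Qb).Point P.p
  let a' : T' := ⟨a, hmem D.pa⟩
  let x' : T' := ⟨x, hmem hx⟩
  let y' : T' := ⟨y, hmem hy⟩
  have ha'0 : a' ≠ 0 := fun h0 => D.a0 (congrArg Subtype.val h0)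
  have hspan : ∀ z : T', z ∈ Submodule.span (ZMod P.p) {a'} → ∃ k : ℕ, z = k • a' := by
    intro z hz
    obtain ⟨c, rfl⟩ := Submodule.mem_span_singleton.mp hz
    exact ⟨c.val, zmod_smul_eq c a'⟩
  have hx'a : x' ∉ Submodule.span (ZMod P.p) {a'} := by
    intro hz
    obtain ⟨k, hk⟩ := hspan _ hz
    apply hxa
    have h1 : x = k • a := congrArg Subtype.val hk
    rw [h1]
    exact AddSubgroup.nsmul_mem _ (AddSubgroup.mem_zmultiples a) k
  have hbot : Submodule.span (ZMod P.p) {a'} ≠ ⊥ := by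
    rw [Ne, Submodule.span_singleton_eq_bot]; exact ha'0
  have htop : Submodule.span (ZMod P.p) {a'} ≠ ⊤ := by
    intro h0
    apply hx'a
    rw [h0]; trivial
  obtain ⟨z, hz, k, hk⟩ := exists_add_nsmul_eq hcard' hbot htop hx'a y'
  obtain ⟨j, rfl⟩ := hspan z hz
  apply hyE
  have h1 : y = j • a + k • x := congrArg Subtype.val hk
  rw [h1]
  exact h.node.E0.add_mem (AddSubgroup.nsmul_mem _ ha0 j) (AddSubgroup.nsmul_mem _ hx0 k)

/-- inertia at `p` acts trivially on `E[p ^ (n + 1)] / C` -/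
theorem triv_at (D : LineData P a) (he : e ∈ E1 A.valuation (frey_isInt P A.valuation))
    (hea : P.p ^ n • e = a) {σ : GQ}
    (hσ : σ ∈ A.inertiaSubgroupIn ℚ) {x : (P.freyCurve⁄Qb).Point}
    (hx : P.p ^ (n + 1) • x = 0) : σ • x - x ∈ AddSubgroup.zmultiples e := by
  by_cases hd : (P.p : ℤ) ∣ P.a * P.b * P.c
  · obtain ⟨T, t, β, h⟩ := frey_node P P.pp hA hd
    exact mem_zmultiples_of_pow h.node.E0 (h.node.E1_le_E0 he) hea
      (fun x hx0 hx => E0_torsion_p hA D h hx hx0) (smul_sub_mem_E0 h hσ hx) (smul_sub_torsion hx)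
  · refine mem_zmultiples_of_pow (E1 A.valuation (frey_isInt P A.valuation)) he hea
      (fun x hx0 hx => ?_) (good_smul_sub P (frey_good P P.pp hA hd) hσ x) (smul_sub_torsion hx)
    obtain ⟨k, rfl⟩ := (D.memE1 A hA x hx).mp hx0
    exact AddSubgroup.nsmul_mem _ (AddSubgroup.mem_zmultiples a) k

/-- generators of stable lines are in `E₁` at `p` -/
theorem mem_E1_of_stable (D : LineData P a) (hea : P.p ^ n • e = a)
    (hstab : ∀ σ : GQ, σ • e ∈ AddSubgroup.zmultiples e) :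
    e ∈ E1 A.valuation (frey_isInt P A.valuation) := by
  have hp5 := P.hp5
  obtain ⟨σ, hσ, hχ⟩ := exists_inertia_cyclo (p := P.p) (by omega) hA
  obtain ⟨m, hm⟩ := AddSubgroup.mem_zmultiples_iff.mp (hstab σ)
  have hpe : P.p ^ (n + 1) • e = 0 := by rw [pow_succ', mul_smul, hea, D.pa]
  -- `m ≡ χ(σ)`
  have hmχ : (m : ZMod P.p) = cycloExp P.p σ := by
    have h1 : (m - cycloExp P.p σ) • a = 0 := by
      rw [sub_smul, natCast_zsmul, ← D.char, ← hea, smul_comm m, hm, nsmul_smul', sub_self]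
    have h2 : (P.p : ℤ) ∣ m - cycloExp P.p σ := by
      by_contra hnd
      apply D.a0
      have hco : IsCoprime (P.p : ℤ) (m - cycloExp P.p σ) :=
        ((Nat.prime_iff_prime_int.mp P.pp).coprime_iff_not_dvd).mpr hnd
      have := mem_of_coprime (⊥ : AddSubgroup _) (e := a) hco (by
        rw [natCast_zsmul, D.pa]; exact AddSubgroup.zero_mem _) (by
        rw [h1]; exact AddSubgroup.zero_mem _)
      exact (AddSubgroup.mem_bot).mp this
    have h3 := (ZMod.intCast_zmod_eq_zero_iff_dvd _ _).mpr h2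
    push_cast at h3
    exact sub_eq_zero.mp h3
  have hm1 : ¬ (P.p : ℤ) ∣ m - 1 := by
    intro hd
    apply hχ
    rw [← hmχ]
    have h3 := (ZMod.intCast_zmod_eq_zero_iff_dvd _ _).mpr hd
    push_cast at h3
    exact sub_eq_zero.mp h3
  have hsub : σ • e - e = (m - 1) • e := by rw [sub_smul, one_smul, hm]
  have hsub2 : (m - 1) ^ 2 • e ∈ E1 A.valuation (frey_isInt P A.valuation) := by
    have hse : σ • ((m - 1) • e) - (m - 1) • e = (m - 1) ^ 2 • e := by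
      rw [← zsmul_smul', ← zsmul_sub, hsub, smul_smul, pow_two]
    by_cases hd : (P.p : ℤ) ∣ P.a * P.b * P.c
    · obtain ⟨T, t, β, h⟩ := frey_node P P.pp hA hd
      have h1 : (m - 1) • e ∈ h.node.E0 := by
        rw [← hsub]; exact smul_sub_mem_E0 h hσ hpe
      rw [← hse]
      exact h.node.smul_sub_mem_E1 (EC.trivMod_of_mem_inertia A hσ) h1
    · rw [← hse]
      exact good_smul_sub P (frey_good P P.pp hA hd) hσ _
  refine mem_of_coprime _ (m := (m - 1) ^ 2) (k := (P.p : ℤ) ^ (n + 1)) ?_ hsub2 ?_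
  · refine IsCoprime.pow ?_
    exact (((Nat.prime_iff_prime_int.mp P.pp).coprime_iff_not_dvd).mpr hm1).symm
  · have : ((P.p : ℤ) ^ (n + 1)) • e = P.p ^ (n + 1) • e := by
      rw [← natCast_zsmul]; push_cast; rfl
    rw [this, hpe]
    exact AddSubgroup.zero_mem _

omit hfact in
/-- divisibility of `E₁` -/
theorem exists_E1_div (he : e ∈ E1 A.valuation (frey_isInt P A.valuation)) :
    ∃ z ∈ E1 A.valuation (frey_isInt P A.valuation), P.p • z = e := by
  have hp5 := P.hp5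
  obtain ⟨c, h1, h2, h3⟩ := frey_exists_e P hA
  exact exists_mem_E1_nsmul_eq (frey_isInt P A.valuation) (frey_Δ_ne_zero P Qb) P.pp (by omega)
    (val_p_lt hA) h1 h2 h3 he

end AtP

end Main

end Fermat.Agent.Iter
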