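import Fermat.Agent.Iter.Step
import Fermat.Agent.Iter.Abstract
import Fermat.Agent.S14

set_option autoImplicit false

/-!
# The iteration: `S12` from Theorem M
-/

namespace Fermat.Agent.Iter

open WeierstrassCurve WeierstrassCurve.Affine WeierstrassCurve.Affine.Point
open Fermat.Agent.EC (IsInt InE1 xX xZ TrivMod NS comp nrm IsKummer)
open Fermat.Agent.ECP Fermat.Agent.MazX ExtCitation Fermat.Agent.WP Fermat.Agent.JInv
open UpperHalfPlane

local notation "Qb" => AlgebraicClosure ℚ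
local notation "GQ" => AlgebraicClosure ℚ ≃ₐ[ℚ] AlgebraicClosure ℚ

/-- **Theorem M** (form used here): a rational point `(j(τ), j(pτ))` of `X₀(p)` which reduces to the
cusp `∞` at `2` and `3` does not reduce to the other cusp at any prime `ℓ ≠ p`. -/
def TheoremM (p : ℕ) (hp : p.Prime) : Prop :=
  ∀ (q q' : ℚ) (τ : ℍ), jInv τ = (q : ℂ) → jInv (X0Places.scaleH p hp.pos τ) = (q' : ℂ) →
    (∀ A : ValuationSubring Qb, A.LiesOverPrime 2 →
      1 < A.valuation (algebraMap ℚ Qb q) ∧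
        A.valuation (algebraMap ℚ Qb q) < A.valuation (algebraMap ℚ Qb q')) →
    (∀ A : ValuationSubring Qb, A.LiesOverPrime 3 →
      1 < A.valuation (algebraMap ℚ Qb q) ∧
        A.valuation (algebraMap ℚ Qb q) < A.valuation (algebraMap ℚ Qb q')) →
    ∀ ℓ : ℕ, ℓ.Prime → ℓ ≠ p → ∀ A : ValuationSubring Qb, A.LiesOverPrime ℓ →
      1 < A.valuation (algebraMap ℚ Qb q) → 1 < A.valuation (algebraMap ℚ Qb q') →
      ¬ A.valuation (algebraMap ℚ Qb q') < A.valuation (algebraMap ℚ Qb q)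

variable {P : FreyPackage} [hfact : Fact P.p.Prime] {a e e' : (P.freyCurve⁄Qb).Point} {n : ℕ}

section E0

omit hfact in
lemma zmult_stable {x : (P.freyCurve⁄Qb).Point} (h : ∀ σ : GQ, σ • x ∈ AddSubgroup.zmultiples x)
    (σ : GQ) {y : (P.freyCurve⁄Qb).Point} (hy : y ∈ AddSubgroup.zmultiples x) :
    σ • y ∈ AddSubgroup.zmultiples x := by
  obtain ⟨k, rfl⟩ := AddSubgroup.mem_zmultiples_iff.mp hy
  rw [← zsmul_smul']
  exact AddSubgroup.zsmul_mem _ (h σ) k

open Classical in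
theorem e0_step (hp17 : 17 ≤ P.p) (hM : TheoremM P.p P.pp) (D : LineData P a) (he : OnE0 P e)
    (hpe : P.p • e' = e) (hea : P.p ^ n • e' = a)
    (hstab : ∀ σ : GQ, σ • e ∈ AddSubgroup.zmultiples e)
    (hstab' : ∀ σ : GQ, σ • e' ∈ AddSubgroup.zmultiples e') : OnE0 P e' := by
  have hp2 : P.p ≠ 2 := by omega
  have hodd : Odd P.p := P.pp.odd_of_ne_two hp2
  -- orders
  have ho' : addOrderOf e' = P.p ^ (n + 1) := addOrderOf_e D hea
  have ho : addOrderOf e = P.p ^ n := by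
    rcases Nat.eq_zero_or_pos n with h0 | h0
    · subst h0
      rw [pow_zero, one_smul] at hea
      rw [pow_zero, ← hpe, hea, D.pa, addOrderOf_zero]
    · obtain ⟨k, rfl⟩ : ∃ k, n = k + 1 := ⟨n - 1, by omega⟩
      refine addOrderOf_e (n := k) D ?_
      rw [← hpe, smul_smul, ← pow_succ]
      exact hea
  -- finsets
  have hfinset : ∀ (x : (P.freyCurve⁄Qb).Point) (m : ℕ), addOrderOf x = P.p ^ m →
      ∃ Cf : Finset (P.freyCurve⁄Qb).Point, (∀ R, R ∈ Cf ↔ R ∈ AddSubgroup.zmultiples x) ∧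
        Cf.card = P.p ^ m := by
    intro x m hx
    have hcard : Nat.card (AddSubgroup.zmultiples x) = P.p ^ m := by
      rw [Nat.card_zmultiples, hx]
    have hfin : Finite (AddSubgroup.zmultiples x) :=
      Nat.finite_of_card_ne_zero (by rw [hcard]; exact pow_ne_zero _ P.hp0)
    have hfin' : (AddSubgroup.zmultiples x : Set (P.freyCurve⁄Qb).Point).Finite := hfin
    refine ⟨hfin'.toFinset, fun R => by simp, ?_⟩
    rw [← hcard, ← Set.ncard_eq_toFinset_card _ hfin']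
    rfl
  obtain ⟨Cf, hCf, hcard⟩ := hfinset e n ho
  obtain ⟨Cf', hCf', hcard'⟩ := hfinset e' (n + 1) ho'
  have hoddC : Odd Cf.card := by rw [hcard]; exact hodd.pow
  have hoddC' : Odd Cf'.card := by rw [hcard']; exact hodd.pow
  have hle : AddSubgroup.zmultiples e ≤ AddSubgroup.zmultiples e' := by
    rw [AddSubgroup.zmultiples_le]
    rw [← hpe]
    exact AddSubgroup.nsmul_mem _ (AddSubgroup.mem_zmultiples e') _
  -- embedding
  let f : Qb →ₐ[ℚ] ℂ := IsAlgClosed.lift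
  obtain ⟨A₀, hA₀⟩ := Fermat.Agent.Frob.exists_liesOverPrime Qb Nat.prime_two
  have h2d : ((2 : ℕ) : ℤ) ∣ P.a * P.b * P.c :=
    Dvd.dvd.mul_right (Dvd.dvd.mul_left (by exact_mod_cast frey_two_dvd_b P) _) _
  have h3d : ((3 : ℕ) : ℤ) ∣ P.a * P.b * P.c := by exact_mod_cast three_dvd hp17 D
  obtain ⟨T₀, t₀, β₀, h₀⟩ := frey_node P Nat.prime_two hA₀ h2d
  obtain ⟨q, hq⟩ := jC_rational f hCf hoddC h₀.T0 h₀.T2
    (fun σ R hR => zmult_stable hstab σ hR)
  obtain ⟨q', hq'⟩ := jC_rational f hCf' hoddC' h₀.T0 h₀.T2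
    (fun σ R hR => zmult_stable hstab' σ hR)
  obtain ⟨τ, hτ, hτ'⟩ := exists_tau_jC' f P.pp hCf hCf' hoddC hoddC' (c := e') (by
      intro hmem
      have h1 := AddSubgroup.zmultiples_le.mpr hmem
      have h2 : Nat.card (AddSubgroup.zmultiples e') ≤ Nat.card (AddSubgroup.zmultiples e) := by
        have hcard : Nat.card (AddSubgroup.zmultiples e) = P.p ^ n := by
          rw [Nat.card_zmultiples, ho]
        have hfin : Finite (AddSubgroup.zmultiples e) :=
          Nat.finite_of_card_ne_zero (by rw [hcard]; exact pow_ne_zero _ P.hp0)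
        exact Nat.card_le_card_of_injective (AddSubgroup.inclusion h1)
          (AddSubgroup.inclusion_injective h1)
      rw [Nat.card_zmultiples, Nat.card_zmultiples, ho, ho'] at h2
      exact absurd h2 (not_le.mpr (Nat.pow_lt_pow_right P.pp.one_lt (Nat.lt_succ_self n))))
    (by rw [hpe]; exact AddSubgroup.mem_zmultiples e) (by
      intro R
      constructor
      · intro hR
        obtain ⟨k, rfl⟩ := AddSubgroup.mem_zmultiples_iff.mp hR
        exact ⟨k, by rw [sub_self]; exact AddSubgroup.zero_mem _⟩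
      · rintro ⟨k, hk⟩
        have := AddSubgroup.add_mem _ (hle hk)
          (AddSubgroup.zsmul_mem _ (AddSubgroup.mem_zmultiples e') k)
        rwa [sub_add_cancel] at this) h₀.T0 h₀.T2
  rw [← hq] at hτ
  rw [← hq'] at hτ'
  have hfq : ∀ r : ℚ, f (algebraMap ℚ Qb r) = (r : ℂ) := fun r => by
    rw [f.commutes]; rfl
  rw [hfq] at hτ hτ'
  -- comparison at every bad place
  have hcmp : ∀ ℓ : ℕ, ℓ.Prime → ℓ ≠ P.p → ∀ A : ValuationSubring Qb, A.LiesOverPrime ℓ →
      ∀ (T : (P.freyCurve⁄Qb).Point) (t β : Qb) (h : RatNode P A T t β),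
        1 < A.valuation (algebraMap ℚ Qb q) ∧ 1 < A.valuation (algebraMap ℚ Qb q') ∧
        (e' ∈ h.node.E0 → A.valuation (algebraMap ℚ Qb q) < A.valuation (algebraMap ℚ Qb q')) ∧
        (e' ∉ h.node.E0 →
          A.valuation (algebraMap ℚ Qb q') < A.valuation (algebraMap ℚ Qb q)) := by
    intro ℓ hℓ hℓp A hA T t β h
    have h1 := compare_jC f h.node (redMap_resMap A) h.T0 h.T2 P.pp hp2 (val_p_eq_one hℓ hA hℓp)
      hCf hCf' hle hcard hcard' (AddSubgroup.zmultiples_le.mpr (he ℓ hℓ hℓp A hA T t β h))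
    rw [jC_indep' f hCf hoddC h.T0 h.T2 h₀.T0 h₀.T2, jC_indep' f hCf' hoddC' h.T0 h.T2 h₀.T0 h₀.T2,
      ← hq, ← hq'] at h1
    refine ⟨h1.1, h1.2.1, fun hm => h1.2.2.1 (AddSubgroup.zmultiples_le.mpr hm), fun hm =>
      h1.2.2.2 (fun hle => hm (hle (AddSubgroup.mem_zmultiples e')))⟩
  have hsmall : ∀ ℓ : ℕ, ℓ = 2 ∨ ℓ = 3 → ∀ A : ValuationSubring Qb, A.LiesOverPrime ℓ →
      1 < A.valuation (algebraMap ℚ Qb q) ∧
        A.valuation (algebraMap ℚ Qb q) < A.valuation (algebraMap ℚ Qb q') := by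
    intro ℓ hℓ23 A hA
    have hℓ : ℓ.Prime := by
      rcases hℓ23 with rfl | rfl
      · exact Nat.prime_two
      · exact Nat.prime_three
    have hℓp : ℓ ≠ P.p := by omega
    have hd : (ℓ : ℤ) ∣ P.a * P.b * P.c := by
      rcases hℓ23 with rfl | rfl
      · exact h2d
      · exact h3d
    obtain ⟨T, t, β, h⟩ := frey_node P hℓ hA hd
    have h1 := hcmp ℓ hℓ hℓp A hA T t β h
    refine ⟨h1.1, h1.2.2.1 ?_⟩
    refine mem_E0_small D hℓ hℓp ?_ ?_ hA h (by rw [hpe]; exact he ℓ hℓ hℓp A hA T t β h) hea hstab'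
    · intro hd
      have := Int.le_of_dvd (by omega) hd
      omega
    · intro hd
      have := Int.le_of_dvd (by rcases hℓ23 with rfl | rfl <;> norm_num) hd
      omega
  intro ℓ hℓ hℓp A hA T t β h
  by_contra hcon
  have h1 := hcmp ℓ hℓ hℓp A hA T t β h
  exact hM q q' τ hτ.symm hτ'.symm (hsmall 2 (Or.inl rfl)) (hsmall 3 (Or.inr rfl)) ℓ hℓ hℓp A hA
    h1.1 h1.2.1 (h1.2.2.2 hcon)

end E0

section Ind

/-- a complement of the line in `E[p]` -/
lemma exists_t0 (D : LineData P a) : ∃ y : (P.freyCurve⁄Qb).Point, P.p • y = 0 ∧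
    y ∉ AddSubgroup.zmultiples a ∧
    ∀ t : (P.freyCurve⁄Qb).Point, P.p • t = 0 → ∃ k : ℤ, t - k • y ∈ AddSubgroup.zmultiples a := by
  have hp5 := P.hp5
  obtain ⟨y, hy, hya⟩ : ∃ y : (P.freyCurve⁄Qb).Point, P.p • y = 0 ∧
      y ∉ AddSubgroup.zmultiples a := by
    by_contra hcon
    push Not at hcon
    have hc1 := ELoc.frey_card P (Nat.pos_of_ne_zero P.hp0)
    have hc2 : Nat.card (AddSubgroup.zmultiples a) = P.p := by
      rw [Nat.card_zmultiples, addOrderOf_e (n := 0) D (by rw [pow_zero, one_smul]), zero_add,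
        pow_one]
    have hfin : Finite (AddSubgroup.zmultiples a) :=
      Nat.finite_of_card_ne_zero (by rw [hc2]; exact P.hp0)
    have hle := Nat.card_le_card_of_injective
      (fun z : {Q : (P.freyCurve⁄Qb).Point // P.p • Q = 0} =>
        (⟨z.1, hcon z.1 z.2⟩ : AddSubgroup.zmultiples a))
      (fun z w hzw => Subtype.ext
        (congrArg (fun t : AddSubgroup.zmultiples a => (t : (P.freyCurve⁄Qb).Point)) hzw))
    rw [hc1, hc2] at hle
    have : P.p * 2 ≤ P.p * P.p := Nat.mul_le_mul_left _ (by omega)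
    rw [pow_two] at hle
    omega
  refine ⟨y, hy, hya, fun t ht => ?_⟩
  obtain ⟨hfin', hcard'⟩ := tors_finite P
  have hmem : ∀ {x : (P.freyCurve⁄Qb).Point}, P.p • x = 0 →
      x ∈ Submodule.torsionBy ℤ (P.freyCurve⁄Qb).Point P.p := by
    intro x hx
    rw [Submodule.mem_torsionBy_iff, natCast_zsmul]
    exact hx
  set T' := Submodule.torsionBy ℤ (P.freyCurve⁄Qb).Point P.p
  let a' : T' := ⟨a, hmem D.pa⟩
  let x' : T' := ⟨y, hmem hy⟩
  let y' : T' := ⟨t, hmem ht⟩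
  have ha'0 : a' ≠ 0 := fun h0 => D.a0 (congrArg Subtype.val h0)
  have hspan : ∀ z : T', z ∈ Submodule.span (ZMod P.p) {a'} → ∃ k : ℕ, z = k • a' := by
    intro z hz
    obtain ⟨c, rfl⟩ := Submodule.mem_span_singleton.mp hz
    exact ⟨c.val, zmod_smul_eq c a'⟩
  have hx'a : x' ∉ Submodule.span (ZMod P.p) {a'} := by
    intro hz
    obtain ⟨k, hk⟩ := hspan _ hz
    apply hya
    have h1 : y = k • a := congrArg Subtype.val hk
    rw [h1]
    exact AddSubgroup.nsmul_mem _ (AddSubgroup.mem_zmultiples a) k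
  have hbot : Submodule.span (ZMod P.p) {a'} ≠ ⊥ := by
    rw [Ne, Submodule.span_singleton_eq_bot]; exact ha'0
  have htop : Submodule.span (ZMod P.p) {a'} ≠ ⊤ := by
    intro h0
    apply hx'a
    rw [h0]; trivial
  obtain ⟨z, hz, k, hk⟩ := exists_add_nsmul_eq hcard' hbot htop hx'a y'
  obtain ⟨j, rfl⟩ := hspan z hz
  have h1 : t = j • a + k • y := congrArg Subtype.val hk
  refine ⟨k, ?_⟩
  rw [h1, natCast_zsmul, add_sub_cancel_right]
  exact AddSubgroup.nsmul_mem _ (AddSubgroup.mem_zmultiples a) j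

omit hfact in
lemma exists_lev (m : ℕ) : ∃ L : IntermediateField ℚ Qb, FiniteDimensional ℚ L ∧
    ∀ σ ∈ L.fixingSubgroup, ∀ z : (P.freyCurve⁄Qb).Point, P.p ^ m • z = 0 → σ • z = z := by
  have hcard := ELoc.frey_card P (pow_pos P.pp.pos m)
  have hfin : {z : (P.freyCurve⁄Qb).Point | P.p ^ m • z = 0}.Finite := by
    have : Finite {z : (P.freyCurve⁄Qb).Point // P.p ^ m • z = 0} :=
      Nat.finite_of_card_ne_zero (by
        rw [hcard]; exact pow_ne_zero _ (pow_ne_zero _ P.hp0))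
    exact this
  obtain ⟨L, hL, h⟩ := ERep.exists_level P.freyCurve hfin
  refine ⟨L, hL, fun σ hσ z hz => h σ (fun x hx => ?_) z hz⟩
  exact (IntermediateField.mem_fixingSubgroup_iff _ _).mp hσ x hx

theorem step_main (hp17 : 17 ≤ P.p) (hM : TheoremM P.p P.pp) (D : LineData P a) (he : OnE0 P e)
    (hea : P.p ^ n • e = a) (hstab : ∀ σ : GQ, σ • e ∈ AddSubgroup.zmultiples e) :
    ∃ e' : (P.freyCurve⁄Qb).Point, P.p ^ (n + 1) • e' = a ∧
      (∀ σ : GQ, σ • e' ∈ AddSubgroup.zmultiples e') ∧ OnE0 P e' := by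
  obtain ⟨t0, ht0, ht0a, hgen⟩ := exists_t0 D
  have hale : ∀ {x}, x ∈ AddSubgroup.zmultiples a → x ∈ AddSubgroup.zmultiples e := by
    intro x hx
    obtain ⟨k, rfl⟩ := AddSubgroup.mem_zmultiples_iff.mp hx
    rw [← hea]
    exact AddSubgroup.zsmul_mem _ (AddSubgroup.nsmul_mem _ (AddSubgroup.mem_zmultiples e) _) k
  have hloc : ∀ A : ValuationSubring Qb, A.LiesOverPrime P.p →
      ∃ F : AddSubgroup (P.freyCurve⁄Qb).Point,
      (∀ σ ∈ A.decompositionSubgroup ℚ, ∀ x ∈ F, σ • x ∈ F) ∧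
      (∀ x ∈ F, P.p • x = 0 → x ∈ AddSubgroup.zmultiples e) ∧ ∃ z ∈ F, P.p • z = e := by
    intro A hA
    refine ⟨E1 A.valuation (frey_isInt P A.valuation), fun σ hσ x hx => smul_mem_E1 hσ hx, ?_,
      exists_E1_div hA (mem_E1_of_stable hA D hea hstab)⟩
    intro x hx hpx
    obtain ⟨k, rfl⟩ := (D.memE1 A hA x hpx).mp hx
    exact hale (AddSubgroup.nsmul_mem _ (AddSubgroup.mem_zmultiples a) k)
  obtain ⟨e', hpe, hstab'⟩ := step (Fermat.Agent.S14.result (p := P.p) (by omega)) (e := e)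
    (t0 := t0) (fun k hk => dvd_of_zsmul' D hea hk) (by
      intro σ
      obtain ⟨m, hm⟩ := AddSubgroup.mem_zmultiples_iff.mp (hstab σ)
      have h1 := coeff_mod D hea hm
      have h2 : (P.p : ℤ) ∣ m - cycloExp P.p σ := by
        rw [← ZMod.intCast_zmod_eq_zero_iff_dvd]
        push_cast
        rw [h1, sub_self]
      obtain ⟨j, hj⟩ := h2
      refine ⟨j, ?_⟩
      rw [← hj, add_sub_cancel]
      exact hm.symm) ht0 (fun h => ht0a (mem_a_of_mem_e D hea h ht0))
    (fun t ht => by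
      obtain ⟨k, hk⟩ := hgen t ht
      exact ⟨k, hale hk⟩) (fun σ t ht => by
      obtain ⟨k, hk⟩ := D.triv t ht σ
      rw [hk]
      exact hale (AddSubgroup.nsmul_mem _ (AddSubgroup.mem_zmultiples a) k))
    (fun ℓ hℓ hℓp A hA σ hσ z hz => unr_step D he hea hℓ hℓp hA hσ hz) hloc (by
      obtain ⟨A, hA⟩ := Fermat.Agent.Frob.exists_liesOverPrime Qb P.pp
      obtain ⟨F, -, -, z, -, hz⟩ := hloc A hA
      exact ⟨z, hz⟩) (by
      obtain ⟨L, hL, h⟩ := exists_lev (P := P) (n + 2)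
      refine ⟨L, hL, fun σ hσ z hz => h σ hσ z ?_⟩
      obtain ⟨k, hk⟩ := AddSubgroup.mem_zmultiples_iff.mp hz
      rw [pow_succ, mul_smul, ← hk, smul_comm, pow_zero_e D hea, zsmul_zero])
  have hea' : P.p ^ (n + 1) • e' = a := by rw [pow_succ, mul_smul, hpe, hea]
  exact ⟨e', hea', hstab', e0_step hp17 hM D he hpe hea' hstab hstab'⟩

theorem exists_chain (hp17 : 17 ≤ P.p) (hM : TheoremM P.p P.pp) (D : LineData P a) (n : ℕ) :
    ∃ e : (P.freyCurve⁄Qb).Point, P.p ^ n • e = a ∧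
      (∀ σ : GQ, σ • e ∈ AddSubgroup.zmultiples e) ∧ OnE0 P e := by
  induction n with
  | zero =>
    have hea : P.p ^ 0 • a = a := by rw [pow_zero, one_smul]
    have hstab : ∀ σ : GQ, σ • a ∈ AddSubgroup.zmultiples a := fun σ => by
      rw [D.char σ]
      exact AddSubgroup.nsmul_mem _ (AddSubgroup.mem_zmultiples a) _
    refine ⟨a, hea, hstab, e0_step (e := 0) hp17 hM D ?_ D.pa hea ?_ hstab⟩
    · intro ℓ _ _ A _ T t β h
      exact AddSubgroup.zero_mem _
    · intro σ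
      exact AddSubgroup.zero_mem _
  | succ n ih =>
    obtain ⟨e, h1, h2, h3⟩ := ih
    exact step_main hp17 hM D h3 h1 h2

/-- triviality of the action on `E[p ^ (n + 1)] / ⟨e⟩` -/
theorem triv_quot (D : LineData P a) (he : OnE0 P e) (hea : P.p ^ n • e = a)
    (hstab : ∀ σ : GQ, σ • e ∈ AddSubgroup.zmultiples e) (σ : GQ)
    (x : (P.freyCurve⁄Qb).Point) (hx : P.p ^ (n + 1) • x = 0) :
    σ • x - x ∈ AddSubgroup.zmultiples e := by
  have hst : ∀ (σ : GQ) {y : (P.freyCurve⁄Qb).Point}, y ∈ AddSubgroup.zmultiples e →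
      σ • y ∈ AddSubgroup.zmultiples e := fun σ y hy => zmult_stable hstab σ hy
  let H : Subgroup GQ :=
    { carrier := {σ | ∀ x : (P.freyCurve⁄Qb).Point, P.p ^ (n + 1) • x = 0 →
        σ • x - x ∈ AddSubgroup.zmultiples e}
      one_mem' := fun x _ => by
        rw [one_smul, sub_self]; exact AddSubgroup.zero_mem _
      mul_mem' := fun {σ τ} hσ hτ x hx => by
        have h1 := hσ (τ • x) (by rw [nsmul_smul', hx]; rfl)
        have h2 := AddSubgroup.add_mem _ h1 (hτ x hx)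
        rwa [sub_add_sub_cancel, ← mul_smul] at h2
      inv_mem' := fun {σ} hσ x hx => by
        have h1 := hσ (σ⁻¹ • x) (by rw [nsmul_smul', hx]; rfl)
        rw [smul_inv_smul] at h1
        have h2 := AddSubgroup.neg_mem _ h1
        rwa [neg_sub] at h2 }
  obtain ⟨L, hL, hLx⟩ := exists_lev (P := P) (n + 1)
  have hnormal : H.Normal := by
    constructor
    intro τ hτ g y hy
    have h1 := hst g (hτ (g⁻¹ • y) (by rw [nsmul_smul', hy]; rfl))
    rwa [smul_sub, smul_inv_smul, ← mul_smul, ← mul_smul] at h1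
  have htop : H = ⊤ := by
    refine Mink.eq_top_of_inertia_le' H L ?_ ?_
    · intro τ hτ y hy
      rw [hLx τ hτ y hy, sub_self]
      exact AddSubgroup.zero_mem _
    · intro ℓ hℓ A hA τ hτ y hy
      by_cases hℓp : ℓ = P.p
      · subst hℓp
        exact triv_at hA D (mem_E1_of_stable hA D hea hstab) hea hτ hy
      · exact triv_away D he hea hℓ hℓp hA hτ hy
  have : σ ∈ H := by rw [htop]; exact Subgroup.mem_top _
  exact this x hx

end Ind

/-- **`S12` from Theorem M.** -/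
theorem not_cofixed_of_theoremM (P : FreyPackage) (hp : 17 ≤ P.p) (hM : TheoremM P.p P.pp) :
    ¬ HasGaloisStableCofixedLine (K := AlgebraicClosure ℚ) ℚ P.freyCurve P.p := by
  intro h
  have hfact : Fact P.p.Prime := ⟨P.pp⟩
  obtain ⟨a, D⟩ := exists_lineData P h
  obtain ⟨ℓ, hℓ1, hℓ⟩ := Nat.exists_infinite_primes (P.p + P.freyCurveInt.Δ.natAbs + 1)
  have hℓp : ℓ ≠ P.p := by omega
  have hgood : P.freyCurveInt.IsGoodPrimeFor ℓ := by
    intro hd
    have h1 := Int.natAbs_dvd_natAbs.mpr hd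
    rw [Int.natAbs_natCast] at h1
    have h2 := Nat.le_of_dvd (Int.natAbs_pos.mpr (Fermat.Agent.Final.Δ_ne_zero P)) h1
    omega
  have : NeZero ℓ := ⟨hℓ.ne_zero⟩
  set N := Nat.card (P.freyCurveInt.reductionMod ℓ).toAffine.Point with hN
  obtain ⟨e, hea, hstab, he⟩ := exists_chain hp hM D N
  have h1 := pow_dvd_card D hea (triv_quot D he hea hstab) hℓ hℓp hgood
  rw [card_eq] at h1
  have h2 : P.p ^ (N + 1) ∣ N := by exact_mod_cast h1
  have h3 := Nat.le_of_dvd (card_pos (P := P) ℓ) h2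
  have h4 : N + 1 < P.p ^ (N + 1) := Nat.lt_pow_self P.pp.one_lt
  omega

end Fermat.Agent.Iter
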