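import Fermat.Agent.MazX.Local4
import Fermat.Agent.Frob.Exists
import Fermat.Agent.SEL.Val
import Fermat.Agent.QuadRep.Cyclo
import Fermat.Agent.ELoc.Basis
import Fermat.Prelude.Def_ExtCitation_KummerBridge

set_option autoImplicit false

/-!
# General facts at a node, Frobenius and inertia elements
-/

namespace Fermat.Agent.Iter

open WeierstrassCurve WeierstrassCurve.Affine WeierstrassCurve.Affine.Point
open Fermat.Agent.EC (IsInt InE1 xX xZ TrivMod NS comp nrm IsKummer)
open Fermat.Agent.ECP Fermat.Agent.MazX ExtCitation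

local notation "Qb" => AlgebraicClosure ℚ
local notation "GQ" => AlgebraicClosure ℚ ≃ₐ[ℚ] AlgebraicClosure ℚ

open scoped Pointwise in
/-- Elements of the decomposition group preserve the valuation (algebraic extensions). -/
theorem valuation_smul_decomp {k L : Type*} [Field k] [Field L] [Algebra k L]
    [Algebra.IsAlgebraic k L]
    (A : ValuationSubring L) {σ : L ≃ₐ[k] L} (hσ : σ ∈ A.decompositionSubgroup k) (x : L) :
    A.valuation (σ x) = A.valuation x := by
  have hmem : (σ • A : ValuationSubring L) = A := hσ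
  set s : L ≃ₐ[k] L := σ with hs
  change A.valuation (s x) = A.valuation x
  have hA : ∀ y, s y ∈ A ↔ y ∈ A := by
    intro y
    constructor
    · intro h
      have : s • y ∈ s • A := by rw [hmem]; exact h
      exact (ValuationSubring.smul_mem_pointwise_smul_iff).mp this
    · intro h
      have : s • y ∈ s • A := (ValuationSubring.smul_mem_pointwise_smul_iff).mpr h
      rw [hmem] at this
      exact this
  have hle : ∀ y z, A.valuation (s y) ≤ A.valuation (s z) ↔ A.valuation y ≤ A.valuation z := by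
    intro y z
    by_cases hz : z = 0
    · subst hz
      simp
    · have hz' : s z ≠ 0 := by simpa using hz
      have p1 : 0 < A.valuation z :=
        lt_of_le_of_ne zero_le (Ne.symm (A.valuation.ne_zero_iff.mpr hz))
      have p2 : 0 < A.valuation (s z) :=
        lt_of_le_of_ne zero_le (Ne.symm (A.valuation.ne_zero_iff.mpr hz'))
      rw [← div_le_one₀ p1, ← div_le_one₀ p2, ← map_div₀, ← map_div₀, ← map_div₀,
        A.valuation_le_one_iff, A.valuation_le_one_iff]
      exact hA _
  -- the orbit of `x` is finite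
  obtain ⟨n, hn, hx⟩ : ∃ n : ℕ, 0 < n ∧ (s ^ n) x = x := by
    have hfin : ((minpoly k x).rootSet L).Finite := (minpoly k x).rootSet_finite L
    have hmaps : ∀ n : ℕ, (s ^ n) x ∈ (minpoly k x).rootSet L := by
      intro n
      rw [Polynomial.mem_rootSet]
      refine ⟨minpoly.ne_zero (Algebra.IsIntegral.isIntegral x), ?_⟩
      have := Polynomial.aeval_algHom_apply ((s ^ n : L ≃ₐ[k] L) : L →ₐ[k] L) x (minpoly k x)
      rw [minpoly.aeval, _root_.map_zero] at this
      exact this
    obtain ⟨i, -, j, -, hij, hijx⟩ := Set.infinite_univ.exists_ne_map_eq_of_mapsTo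
      (s := Set.univ) (t := (minpoly k x).rootSet L) (f := fun n : ℕ => (s ^ n) x)
      (fun n _ => hmaps n) hfin
    have haux : ∀ i j : ℕ, i < j → (s ^ i) x = (s ^ j) x → ∃ n : ℕ, 0 < n ∧ (s ^ n) x = x := by
      intro i j hlt h
      refine ⟨j - i, by omega, ?_⟩
      have : j = i + (j - i) := by omega
      rw [this, pow_add] at h
      exact ((s ^ i).injective h).symm
    rcases lt_or_gt_of_ne hij with hlt | hlt
    · exact haux i j hlt hijx
    · exact haux j i hlt hijx.symm
  rcases lt_trichotomy (A.valuation (s x)) (A.valuation x) with hlt | heq | hlt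
  · exfalso
    have h1 : ∀ m : ℕ, 0 < m → A.valuation ((s ^ m) x) < A.valuation x := by
      intro m hm
      induction m with
      | zero => omega
      | succ m ih =>
        rcases Nat.eq_zero_or_pos m with rfl | hm'
        · simpa using hlt
        · have h2 := ih hm'
          have h3 : A.valuation (s ((s ^ m) x)) < A.valuation (s x) := by
            rw [← not_le, hle, not_le]; exact h2
          rw [pow_succ']
          exact h3.trans hlt
    have := h1 n hn
    rw [hx] at this
    exact lt_irrefl _ this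
  · exact heq
  · exfalso
    have h1 : ∀ m : ℕ, 0 < m → A.valuation x < A.valuation ((s ^ m) x) := by
      intro m hm
      induction m with
      | zero => omega
      | succ m ih =>
        rcases Nat.eq_zero_or_pos m with rfl | hm'
        · simpa using hlt
        · have h2 := ih hm'
          have h3 : A.valuation (s x) < A.valuation (s ((s ^ m) x)) := by
            rw [← not_le, hle, not_le]; exact h2
          rw [pow_succ']
          exact hlt.trans h3
    have := h1 n hn
    rw [hx] at this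
    exact lt_irrefl _ this


section Red

/-- the residue map of a valuation subring -/
noncomputable def resMap {L : Type*} [Field L] (A : ValuationSubring L) :
    A.valuation.integer →+* IsLocalRing.ResidueField A :=
  (IsLocalRing.residue A).comp
    { toFun := fun x => ⟨(x : L), (A.valuation_le_one_iff _).mp x.2⟩
      map_one' := rfl
      map_mul' := fun _ _ => rfl
      map_zero' := rfl
      map_add' := fun _ _ => rfl }

lemma redMap_resMap {L : Type*} [Field L] (A : ValuationSubring L) :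
    RedMap A.valuation (resMap A) := by
  constructor
  intro a
  change IsLocalRing.residue A ⟨(a : L), _⟩ = 0 ↔ _
  rw [IsLocalRing.residue_eq_zero_iff, A.valuation_lt_one_iff]

end Red

section Node

variable {K Γ₀ : Type*} [Field K] [LinearOrderedCommGroupWithZero Γ₀] {v : Valuation K Γ₀}

/-- the node gives a `2`-torsion point -/
lemma exists_two_torsion {W : WeierstrassCurve.Affine K} {e t β : K} [DecidableEq K]
    (h : NodeData v W e t β) (hΔ : W.Δ ≠ 0) :
    ∃ T : W.Point, T ≠ 0 ∧ (2 : ℕ) • T = 0 ∧ xc T = e := by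
  have heq : W.Equation e t := by
    rw [Affine.equation_iff]
    linear_combination h.eqn
  have hns : W.Nonsingular e t := (Affine.equation_iff_nonsingular_of_Δ_ne_zero hΔ).mp heq
  refine ⟨.some e t hns, Point.some_ne_zero hns, ?_, rfl⟩
  rw [two_smul_eq_zero_iff (Point.some_ne_zero hns), tc_some]
  exact h.two_t

section Smul

variable {R S : Type*} [CommRing R] [CommRing S] [DecidableEq K]
  [Algebra R S] [Algebra R K] [Algebra S K] [IsScalarTower R S K] {W' : Affine R}

lemma xX_smul (σ : K ≃ₐ[S] K) (Q : (W'⁄K).Point) :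
    xX (σ • Q) = σ (xX Q) ∧ xZ (σ • Q) = σ (xZ Q) := by
  rcases Q with _ | ⟨x, y, h⟩
  · exact ⟨(_root_.map_one σ).symm, (_root_.map_zero σ).symm⟩
  · exact ⟨rfl, (_root_.map_one σ).symm⟩

lemma cmp_smul {e β : K} {σ : K ≃ₐ[S] K} (hσv : ∀ x, v (σ x) = v x) (hσe : σ e = e)
    (Q : (W'⁄K).Point) : cmp v (W'⁄K) e β (σ • Q) = cmp v (W'⁄K) e β Q := by
  obtain ⟨h1, h2⟩ := xX_smul (W' := W') σ Q
  have h3 : xX (σ • Q) - e * xZ (σ • Q) = σ (xX Q - e * xZ Q) := by
    rw [h1, h2, _root_.map_sub, _root_.map_mul, hσe]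
  have h3' : v (xX (σ • Q) - e * xZ (σ • Q)) = v (xX Q - e * xZ Q) := by rw [h3, hσv]
  have h2' : v (xZ (σ • Q)) = v (xZ Q) := by rw [h2, hσv]
  have hn : v (nrm v (fun P : (W'⁄K).Point => xX P - e * xZ P) xZ (σ • Q)) =
      v (nrm v (fun P : (W'⁄K).Point => xX P - e * xZ P) xZ Q) := by
    unfold nrm
    simp only [h3', h2']
    split_ifs
    · exact h3'
    · exact h2'
  unfold ECP.cmp comp
  rw [map_div₀, map_div₀, hn]
  simp only [h3']

/-- Frobenius-type elements act by `±1` modulo `E₀` -/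
lemma dvd_of_not_mem_E0 {e t β : K} (h : NodeData v (W'⁄K) e t β) {σ : K ≃ₐ[S] K}
    (hσv : ∀ x, v (σ x) = v x) (hσe : σ e = e) {p : ℕ} (hp : p.Prime) {Q : (W'⁄K).Point}
    (hpQ : p • Q ∈ h.E0) (hQ : Q ∉ h.E0) {m : ℤ} (hm : σ • Q = m • Q) :
    (p : ℤ) ∣ m + 1 ∨ (p : ℤ) ∣ m - 1 := by
  have key : ∀ k : ℤ, k • Q ∈ h.E0 → (p : ℤ) ∣ k := by
    intro k hk
    by_contra hnd
    have hco : IsCoprime (p : ℤ) k :=
      ((Nat.prime_iff_prime_int.mp hp).coprime_iff_not_dvd).mpr hnd
    obtain ⟨a, b, hab⟩ := hco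
    apply hQ
    have e1 : Q = a • (p • Q) + b • (k • Q) := by
      rw [← natCast_zsmul Q p, smul_smul, smul_smul, ← add_smul, hab, one_smul]
    rw [e1]
    exact h.E0.add_mem (h.E0.zsmul_mem hpQ a) (h.E0.zsmul_mem hk b)
  rcases mem_of_cmp_eq h (cmp_smul hσv hσe Q) with h1 | h1
  · left
    apply key
    rwa [add_smul, one_smul, ← hm]
  · right
    apply key
    rwa [sub_smul, one_smul, ← hm]

end Smul

/-- the `p`-torsion of `E₀` is generated by any of its nonzero elements (`ℓ ≠ p`) -/
lemma exists_nsmul_of_mem_E0 {W : WeierstrassCurve.Affine K} {e t β : K} [DecidableEq K]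
    (h : NodeData v W e t β) {k : Type*} [Field k] {π : v.integer →+* k} (hπ : RedMap v π)
    {p : ℕ} (hp : p.Prime) (hp2 : p ≠ 2) (hvp : v (p : K) = 1) {a x : W.Point} (ha0 : a ≠ 0)
    (hpa : p • a = 0) (ha : a ∈ h.E0) (hpx : p • x = 0) (hx : x ∈ h.E0) : ∃ j : ℕ, x = j • a := by
  classical
  by_contra hcon
  push Not at hcon
  have hinj : ∀ i ∈ Finset.Icc 1 (p - 1), ∀ j ∈ Finset.Icc 1 (p - 1), i • a = j • a → i = j := by
    intro i hi j hj hij
    rw [Finset.mem_Icc] at hi hj
    have key : ∀ i j : ℕ, i ≤ j → j < p → i • a = j • a → i = j := by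
      intro i j hij hjp heq
      have h1 : (j - i) • a = 0 := by
        have : j • a = (j - i) • a + i • a := by rw [← add_nsmul]; congr 1; omega
        rw [this] at heq
        exact right_eq_add.mp heq
      have h2 := (ELoc.nsmul_eq_zero_iff_dvd hp hpa ha0 (j - i)).mp h1
      rcases Nat.eq_zero_or_pos (j - i) with h3 | h3
      · omega
      · have := Nat.le_of_dvd h3 h2
        omega
    rcases le_total i j with h1 | h1
    · exact key i j h1 (by omega) hij
    · exact (key j i h1 (by omega) hij.symm).symm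
  let G : Finset W.Point := insert x ((Finset.Icc 1 (p - 1)).image (fun i : ℕ => i • a))
  have hxG : x ∉ (Finset.Icc 1 (p - 1)).image (fun i : ℕ => i • a) := by
    intro hx
    obtain ⟨i, -, hi⟩ := Finset.mem_image.mp hx
    exact hcon i hi.symm
  have hcard : G.card = p := by
    rw [Finset.card_insert_of_notMem hxG, Finset.card_image_of_injOn (fun i hi j hj => hinj i hi j hj),
      Nat.card_Icc]
    have := hp.two_le
    omega
  have h1 := card_E0_le h hπ (hp.odd_of_ne_two hp2) hvp G (by
    intro P hP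
    rcases Finset.mem_insert.mp hP with rfl | hP
    · refine ⟨hx, hpx, ?_⟩
      rintro rfl
      exact hcon 0 (zero_nsmul a).symm
    · obtain ⟨i, hi, rfl⟩ := Finset.mem_image.mp hP
      rw [Finset.mem_Icc] at hi
      refine ⟨nsmul_mem ha i, by rw [smul_comm, hpa, smul_zero], ?_⟩
      intro h0
      have := (ELoc.nsmul_eq_zero_iff_dvd hp hpa ha0 i).mp h0
      have := Nat.le_of_dvd (by omega) this
      have := hp.two_le
      omega)
  omega

end Node

section Gal

/-- the cyclotomic character on roots of unity -/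
lemma cyclo_apply {p : ℕ} [hp : Fact p.Prime] (σ : GQ) {μ : Qb} (hμ : μ ^ p = 1) :
    σ μ = μ ^ cycloExp p σ := by
  have : NeZero p := ⟨hp.out.ne_zero⟩
  have h1 : (Units.mkOfMulEqOne μ (μ ^ (p - 1)) (by
      rw [← pow_succ', Nat.sub_add_cancel hp.out.one_le, hμ])) ∈
      rootsOfUnity p (AlgebraicClosure ℚ) := by
    rw [mem_rootsOfUnity]
    ext
    exact hμ
  exact modularCyclotomicCharacter.spec (AlgebraicClosure ℚ)
    (ExtCitation.card_rootsOfUnity_eq_self p) (σ : AlgebraicClosure ℚ ≃+* AlgebraicClosure ℚ) h1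

/-- Frobenius at `ℓ` -/
lemma cyclo_frob {p : ℕ} [hp : Fact p.Prime] {ℓ : ℕ} (hℓ : ℓ.Prime) (hℓp : ℓ ≠ p)
    {A : ValuationSubring Qb} (hA : A.LiesOverPrime ℓ) {σ : GQ} (hσ : A.IsFrobeniusAt σ ℓ) :
    (cycloExp p σ : ZMod p) = ℓ := by
  have : NeZero p := ⟨hp.out.ne_zero⟩
  obtain ⟨ζ, hζ⟩ := HasEnoughRootsOfUnity.exists_primitiveRoot (AlgebraicClosure ℚ) p
  have h1 := cyclo_apply σ hζ.pow_eq_one
  have h2 := QuadRep.frobenius_smul_root hℓ hA hσ (N := p) hp.out.pos
    ((Nat.coprime_primes hp.out hℓ).mpr (Ne.symm hℓp)) ζ hζ.pow_eq_one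
  rw [h1] at h2
  exact (ZMod.natCast_eq_natCast_iff _ _ p).mpr (QuadRep.modEq_of_pow_eq hζ hp.out.pos h2)

/-- the inertia group at `p` acts nontrivially on `μ_p` -/
lemma exists_inertia_cyclo {p : ℕ} [hp : Fact p.Prime] (hp2 : p ≠ 2) {A : ValuationSubring Qb}
    (hA : A.LiesOverPrime p) : ∃ σ ∈ A.inertiaSubgroupIn ℚ, (cycloExp p σ : ZMod p) ≠ 1 := by
  by_contra hcon
  push Not at hcon
  have : NeZero p := ⟨hp.out.ne_zero⟩
  obtain ⟨ζ, hζ⟩ := HasEnoughRootsOfUnity.exists_primitiveRoot (AlgebraicClosure ℚ) p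
  have hζ1 : ζ - 1 ≠ 0 := sub_ne_zero.mpr (hζ.ne_one hp.out.one_lt)
  have hvp : A.valuation ((p : ℕ) : Qb) < 1 := A.mem_nonunits_iff.mp hA
  have hvp0 : 0 < A.valuation ((p : ℕ) : Qb) := by
    refine lt_of_le_of_ne zero_le (Ne.symm (A.valuation.ne_zero_iff.mpr ?_))
    exact_mod_cast hp.out.ne_zero
  obtain ⟨n, hn⟩ := SEL.exists_valuation_zpow_of_inertia A hp.out hA hζ1 (by
    intro g hg
    have h1 := hcon g hg
    have h2 := cyclo_apply g hζ.pow_eq_one
    have h3 : ζ ^ cycloExp p g = ζ := by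
      have h4 : cycloExp p g ≡ 1 [MOD p] := by
        have : (cycloExp p g : ZMod p) = ((1 : ℕ) : ZMod p) := by rw [h1]; simp
        exact (ZMod.natCast_eq_natCast_iff _ _ p).mp this
      have h5 := pow_eq_pow_of_modEq h4 hζ.pow_eq_one
      rw [h5, pow_one]
    rw [map_sub, _root_.map_one, h2, h3])
  have h1 := ELoc.val_zeta (v := A.valuation) hp.out hζ
  rw [hn, ← zpow_natCast, ← zpow_mul] at h1
  have h2 : A.valuation ((p : ℕ) : Qb) ^ (n * ((p - 1 : ℕ) : ℤ)) = A.valuation ((p : ℕ) : Qb) ^ (1 : ℤ) := by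
    rw [h1, zpow_one]
  have h3 := (zpow_right_injective₀ hvp0 hvp.ne) h2
  have h4 : ((p - 1 : ℕ) : ℤ) ∣ 1 := ⟨n, by rw [← h3]; ring⟩
  have h5 := Int.eq_one_of_dvd_one (by omega) h4
  have := hp.out.two_le
  omega

end Gal

end Fermat.Agent.Iter
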