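import Fermat.Agent.Iter.Local
import Fermat.Agent.FrobE.Qbar

set_option autoImplicit false

/-!
# The identity component and Frobenius arguments
-/

namespace Fermat.Agent.Iter

open WeierstrassCurve WeierstrassCurve.Affine WeierstrassCurve.Affine.Point
open Fermat.Agent.EC (IsInt InE1 xX xZ TrivMod NS comp nrm IsKummer)
open Fermat.Agent.ECP Fermat.Agent.MazX ExtCitation Fermat.Agent.WP Fermat.Agent.JInv
open Fermat.Agent.Tate Fermat.Agent.ERep
open UpperHalfPlane

local notation "Qb" => AlgebraicClosure ℚ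
local notation "GQ" => AlgebraicClosure ℚ ≃ₐ[ℚ] AlgebraicClosure ℚ

variable {P : FreyPackage} [hfact : Fact P.p.Prime] {a e : (P.freyCurve⁄Qb).Point} {n : ℕ}

section Order

lemma pow_zero_e (D : LineData P a) (hea : P.p ^ n • e = a) : P.p ^ (n + 1) • e = 0 := by
  rw [pow_succ', mul_smul, hea, D.pa]

lemma addOrderOf_e (D : LineData P a) (hea : P.p ^ n • e = a) : addOrderOf e = P.p ^ (n + 1) := by
  refine addOrderOf_eq_prime_pow ?_ (pow_zero_e D hea)
  rw [hea]
  exact D.a0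

lemma dvd_of_zsmul (D : LineData P a) (hea : P.p ^ n • e = a) {k : ℤ} (hk : k • e = 0) :
    ((P.p ^ (n + 1) : ℕ) : ℤ) ∣ k := by
  rw [← addOrderOf_e D hea]
  exact addOrderOf_dvd_iff_zsmul_eq_zero.mpr hk

lemma dvd_of_zsmul' (D : LineData P a) (hea : P.p ^ n • e = a) {k : ℤ} (hk : k • e = 0) :
    (P.p : ℤ) ∣ k := by
  refine dvd_trans ?_ (dvd_of_zsmul D hea hk)
  push_cast
  exact dvd_pow_self _ (Nat.succ_ne_zero n)

/-- the `p`-torsion of `⟨e⟩` -/
lemma mem_a_of_mem_e (D : LineData P a) (hea : P.p ^ n • e = a) {x : (P.freyCurve⁄Qb).Point}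
    (hx : x ∈ AddSubgroup.zmultiples e) (hpx : P.p • x = 0) : x ∈ AddSubgroup.zmultiples a := by
  obtain ⟨k, rfl⟩ := AddSubgroup.mem_zmultiples_iff.mp hx
  have h1 : ((P.p : ℤ) * k) • e = 0 := by
    rw [mul_smul, natCast_zsmul]; exact hpx
  obtain ⟨j, hj⟩ := dvd_of_zsmul D hea h1
  have hp0 : (P.p : ℤ) ≠ 0 := by exact_mod_cast P.hp0
  have h2 : k = (P.p : ℤ) ^ n * j := by
    apply mul_left_cancel₀ hp0
    rw [hj]; push_cast; ring
  refine AddSubgroup.mem_zmultiples_iff.mpr ⟨j, ?_⟩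
  rw [h2, mul_comm, mul_smul, ← hea, ← natCast_zsmul]
  push_cast
  rfl

/-- the coefficient of the action on a stable cyclic group -/
lemma coeff_mod (D : LineData P a) (hea : P.p ^ n • e = a) {σ : GQ} {m : ℤ} (hm : m • e = σ • e) :
    (m : ZMod P.p) = cycloExp P.p σ := by
  have h1 : (m - cycloExp P.p σ) • a = 0 := by
    rw [sub_smul, natCast_zsmul, ← D.char, ← hea, smul_comm m, hm, nsmul_smul', sub_self]
  have h2 : (P.p : ℤ) ∣ m - cycloExp P.p σ :=
    dvd_of_zsmul' (n := 0) D (by rw [pow_zero, one_smul]) h1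
  have h3 := (ZMod.intCast_zmod_eq_zero_iff_dvd _ _).mpr h2
  push_cast at h3
  exact sub_eq_zero.mp h3

end Order

section Small

/-- at a prime `q ≢ ±1 mod p` stable lines extend inside `E₀` -/
theorem mem_E0_small (D : LineData P a) {q : ℕ} (hq : q.Prime) (hqp : q ≠ P.p)
    (h1 : ¬ (P.p : ℤ) ∣ q + 1) (h2 : ¬ (P.p : ℤ) ∣ q - 1) {A : ValuationSubring Qb}
    (hA : A.LiesOverPrime q) {T : (P.freyCurve⁄Qb).Point} {t β : Qb} (h : RatNode P A T t β)
    (hpe : P.p • e ∈ h.node.E0) (hea : P.p ^ n • e = a)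
    (hstab : ∀ σ : GQ, σ • e ∈ AddSubgroup.zmultiples e) : e ∈ h.node.E0 := by
  by_contra he
  obtain ⟨φ, hφ⟩ := Fermat.Agent.Frob.exists_isFrobeniusAt (L := Qb) hq hA
  obtain ⟨m, hm⟩ := AddSubgroup.mem_zmultiples_iff.mp (hstab φ)
  have hmod := coeff_mod D hea hm
  rw [cyclo_frob hq hqp hA hφ] at hmod
  have hcong : (P.p : ℤ) ∣ m - q := by
    rw [← ZMod.intCast_zmod_eq_zero_iff_dvd]
    push_cast
    rw [hmod, sub_self]
  rcases dvd_of_not_mem_E0 h.node
    (fun x => valuation_smul_decomp A hφ.mem_decompositionSubgroup x) (h.xT φ) P.pp hpe he hm.symm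
    with h3 | h3
  · apply h1
    have := dvd_sub h3 hcong
    have e1 : m + 1 - (m - q) = (q : ℤ) + 1 := by ring
    rwa [e1] at this
  · apply h2
    have := dvd_sub h3 hcong
    have e1 : m - 1 - (m - q) = (q : ℤ) - 1 := by ring
    rwa [e1] at this

end Small

section Frobenius

/-- `p ^ (n + 1)` divides the number of points at a good prime -/
theorem pow_dvd_card (D : LineData P a) (hea : P.p ^ n • e = a)
    (htriv : ∀ (σ : GQ) (x : (P.freyCurve⁄Qb).Point), P.p ^ (n + 1) • x = 0 →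
      σ • x - x ∈ AddSubgroup.zmultiples e) {ℓ : ℕ} (hℓ : ℓ.Prime) (hℓp : ℓ ≠ P.p)
    (hgood : P.freyCurveInt.IsGoodPrimeFor ℓ) :
    ((P.p ^ (n + 1) : ℕ) : ℤ) ∣ 1 - P.freyCurveInt.apOfModel ℓ + ℓ := by
  have hp5 := P.hp5
  obtain ⟨A, hA⟩ := Fermat.Agent.Frob.exists_liesOverPrime Qb hℓ
  obtain ⟨φ, hφ⟩ := Fermat.Agent.Frob.exists_isFrobeniusAt (L := Qb) hℓ hA
  -- a point of `E[p]` outside `⟨a⟩`
  obtain ⟨y, hy, hya⟩ : ∃ y : (P.freyCurve⁄Qb).Point, P.p • y = 0 ∧
      y ∉ AddSubgroup.zmultiples a := by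
    by_contra hcon
    push Not at hcon
    have hc1 := ELoc.frey_card P (Nat.pos_of_ne_zero P.hp0)
    have hc2 : Nat.card (AddSubgroup.zmultiples a) = P.p := by
      rw [Nat.card_zmultiples, addOrderOf_e (n := 0) D (by rw [pow_zero, one_smul]), zero_add,
        pow_one]
    have hfin : Finite (AddSubgroup.zmultiples a) :=
      Nat.finite_of_card_ne_zero (by rw [hc2]; exact P.hp0)
    have hle := Nat.card_le_card_of_injective
      (fun z : {Q : (P.freyCurve⁄Qb).Point // P.p • Q = 0} =>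
        (⟨z.1, hcon z.1 z.2⟩ : AddSubgroup.zmultiples a))
      (fun z w hzw => Subtype.ext
        (congrArg (fun t : AddSubgroup.zmultiples a => (t : (P.freyCurve⁄Qb).Point)) hzw))
    rw [hc1, hc2] at hle
    have : P.p * 2 ≤ P.p * P.p := Nat.mul_le_mul_left _ (by omega)
    rw [pow_two] at hle
    omega
  -- divide by `p ^ n`
  obtain ⟨x, hx, hxy⟩ : ∃ x : (P.freyCurve⁄Qb).Point, P.p ^ (n + 1) • x = 0 ∧ P.p ^ n • x = y := by
    obtain ⟨u, hu⟩ := (tb P.freyCurve P.p).pr_surjective 1 ⟨y, by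
      rw [mem_tor, pow_one]; exact hy⟩
    have key : ∀ k : ℕ, P.p ^ k • ((tb P.freyCurve P.p).pr (k + 1) u : (P.freyCurve⁄Qb).Point) =
        (tb P.freyCurve P.p).pr 1 u := by
      intro k
      induction k with
      | zero => rw [pow_zero, one_smul]
      | succ k ih => rw [pow_succ, mul_smul, TBasis.p_smul_pr, ih]
    have hxy : P.p ^ n • ((tb P.freyCurve P.p).pr (n + 1) u : (P.freyCurve⁄Qb).Point) = y := by
      rw [key n, hu]
    refine ⟨(tb P.freyCurve P.p).pr (n + 1) u, ?_, hxy⟩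
    rw [pow_succ', mul_smul, hxy, hy]
  set N : ℤ := 1 - P.freyCurveInt.apOfModel ℓ + ℓ with hN
  have hNx : N • x ∈ AddSubgroup.zmultiples e := by
    have h1 := FrobE.frob_char P.freyCurve (Fermat.Agent.Final.isIntegralModelOf P) hℓ hgood hA hφ
      (n := P.p ^ (n + 1)) P.hp_odd.pow (fun hd => hℓp
        ((Nat.prime_dvd_prime_iff_eq hℓ P.pp).mp (hℓ.dvd_of_dvd_pow hd))) x hx
    have h2 := htriv φ x hx
    have h3 := htriv φ (φ • x) (by
      rw [nsmul_smul', hx]; rfl)
    have e1 : N • x = (φ • φ • x - P.freyCurveInt.apOfModel ℓ • (φ • x) + (ℓ : ℤ) • x) -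
        (φ • φ • x - φ • x) - (1 - P.freyCurveInt.apOfModel ℓ) • (φ • x - x) := by
      generalize hb : φ • φ • x = b
      generalize hc : φ • x = c
      rw [hN]
      module
    rw [e1, h1]
    exact AddSubgroup.sub_mem _ (AddSubgroup.sub_mem _ (AddSubgroup.zero_mem _) h3)
      (AddSubgroup.zsmul_mem _ h2 _)
  have key : ∀ i ≤ n + 1, ((P.p : ℤ) ^ i) ∣ N := by
    intro i
    induction i with
    | zero => intro _; simp
    | succ i ih =>
      intro hi
      obtain ⟨u, hu⟩ := ih (by omega)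
      have h1 : u • y ∈ AddSubgroup.zmultiples e := by
        have h2 := AddSubgroup.nsmul_mem _ hNx (P.p ^ (n - i))
        have e1 : P.p ^ (n - i) • (N • x) = u • y := by
          rw [← hxy, hu, ← natCast_zsmul, smul_smul, ← natCast_zsmul x (P.p ^ n), smul_smul]
          congr 1
          push_cast
          have : (P.p : ℤ) ^ n = (P.p : ℤ) ^ (n - i) * (P.p : ℤ) ^ i := by
            rw [← pow_add]; congr 1; omega
          rw [this]; ring
        rwa [e1] at h2
      have h2 : u • y ∈ AddSubgroup.zmultiples a := mem_a_of_mem_e D hea h1 (by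
        rw [smul_comm, hy, zsmul_zero])
      have h3 : (P.p : ℤ) ∣ u := by
        by_contra hnd
        apply hya
        have hco : IsCoprime (P.p : ℤ) u :=
          ((Nat.prime_iff_prime_int.mp P.pp).coprime_iff_not_dvd).mpr hnd
        exact mem_of_coprime _ hco (by rw [natCast_zsmul, hy]; exact AddSubgroup.zero_mem _) h2
      obtain ⟨w, hw⟩ := h3
      exact ⟨w, by rw [hu, hw]; ring⟩
  have := key (n + 1) le_rfl
  exact_mod_cast this

omit hfact in
/-- number of points -/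
lemma card_eq (ℓ : ℕ) [NeZero ℓ] : 1 - P.freyCurveInt.apOfModel ℓ + ℓ =
    (Nat.card (P.freyCurveInt.reductionMod ℓ).toAffine.Point : ℤ) := by
  rw [apOfModel, traceOfFrobenius, card, Nat.card_zmod]
  ring

omit hfact in
lemma card_pos (ℓ : ℕ) [NeZero ℓ] : 0 < Nat.card (P.freyCurveInt.reductionMod ℓ).toAffine.Point := by
  have : Finite (ZMod ℓ) := Finite.of_fintype _
  have : Nonempty (P.freyCurveInt.reductionMod ℓ).toAffine.Point := ⟨0⟩
  exact Nat.card_pos

omit hfact in
lemma card_le_ten : Nat.card (P.freyCurveInt.reductionMod 3).toAffine.Point ≤ 10 := by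
  let f : (P.freyCurveInt.reductionMod 3).toAffine.Point → Option (ZMod 3 × ZMod 3)
    | .zero => none
    | .some x y _ => Option.some (x, y)
  have hf : Function.Injective f := by
    rintro (_ | ⟨x₁, y₁, h₁⟩) (_ | ⟨x₂, y₂, h₂⟩) h <;>
      simp only [f, Option.some.injEq, Prod.mk.injEq, reduceCtorEq] at h
    · rfl
    · obtain ⟨rfl, rfl⟩ := h; rfl
  have := Nat.card_le_card_of_injective f hf
  refine this.trans ?_
  rw [Nat.card_eq_fintype_card, Fintype.card_option, Fintype.card_prod, ZMod.card]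

/-- `3` is a bad prime -/
theorem three_dvd (hp17 : 17 ≤ P.p) (D : LineData P a) : (3 : ℤ) ∣ P.a * P.b * P.c := by
  by_contra hd
  have hgood : P.freyCurveInt.IsGoodPrimeFor 3 := by
    intro h3
    apply hd
    have h3' : (3 : ℤ) ∣ P.freyCurveInt.Δ := by exact_mod_cast h3
    have h1 : (3 : ℤ) ∣ (P.a ^ P.p * P.b ^ P.p * P.c ^ P.p) ^ 2 := by
      rw [← Fermat.Agent.Final.Δ_eq]; exact Dvd.dvd.mul_left h3' _
    have h2 := Int.prime_three.dvd_of_dvd_pow h1
    rw [← mul_pow, ← mul_pow] at h2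
    exact Int.prime_three.dvd_of_dvd_pow h2
  have h1 := pow_dvd_card (e := a) (n := 0) D (by rw [pow_zero, one_smul]) (by
    intro σ x hx
    rw [zero_add, pow_one] at hx
    obtain ⟨k, hk⟩ := D.triv x hx σ
    rw [hk]
    exact AddSubgroup.nsmul_mem _ (AddSubgroup.mem_zmultiples a) k) Nat.prime_three (by omega) hgood
  rw [card_eq, zero_add, pow_one] at h1
  have h2 : P.p ∣ Nat.card (P.freyCurveInt.reductionMod 3).toAffine.Point := by exact_mod_cast h1
  have h3 := Nat.le_of_dvd (card_pos (P := P) 3) h2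
  have h4 := card_le_ten (P := P)
  omega

end Frobenius

end Fermat.Agent.Iter
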