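import Fermat.Agent.Iter.Main
import Fermat.Agent.MazX.ThmM

set_option autoImplicit false

/-!
# `S12` from the finiteness of Eisenstein quotients
-/

namespace Fermat.Agent.Iter

open WeierstrassCurve WeierstrassCurve.Affine WeierstrassCurve.Affine.Point

theorem theoremM_of_eisFin {p : ℕ} (hp : p.Prime) (h17 : 17 ≤ p)
    (hF : ∀ [Fact p.Prime] (q : ℕ), q.Prime → q ∣ p - 1 → MazX.EisFin p q) : TheoremM p hp := by
  intro q q' τ h1 h2 H2 H3 ℓ hℓ hℓp A hA ha _
  have hfact : Fact p.Prime := ⟨hp⟩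
  refine MazX.theoremM_inf (p := p) (by omega) (by omega) ?_ (fun q hq hd => hF q hq hd) q q' τ h1 h2
    H2 H3 ℓ hℓ hℓp A hA ha
  simp only [Finset.mem_insert, Finset.mem_singleton, not_or]
  omega

/-- **`S12` from `EisFin`.** -/
theorem not_cofixed_of_eisFin (P : FreyPackage) (hp : 17 ≤ P.p)
    (hF : ∀ [Fact P.p.Prime] (q : ℕ), q.Prime → q ∣ P.p - 1 → MazX.EisFin P.p q) :
    ¬ HasGaloisStableCofixedLine (K := AlgebraicClosure ℚ) ℚ P.freyCurve P.p :=
  not_cofixed_of_theoremM P hp (theoremM_of_eisFin P.pp hp hF)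

end Fermat.Agent.Iter
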